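import Fermat.Agent.Two.ModTwo.Setup
import Fermat.Agent.Two.Tangent.Normal
import Fermat.Agent.Two.Tangent.SelectCurve
import Fermat.Agent.Two.Flat.Residual
import Fermat.Agent.Two.Basic.Quad
import Fermat.Agent.Two.Brandt.SetupFacts
import Fermat.Agent.Two.Class.TwoTorsion
import Fermat.Agent.Two.Class.Density

/-!
# The residual data of an auxiliary curve in characteristic two

The two-torsion of a `TwoCurve` in normal form over a field with four elements is a dihedral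
representation, and detecting sets of auxiliary primes give the data of a `Setup`.
-/

set_option autoImplicit false
set_option linter.style.haveILetI false

noncomputable section

namespace Fermat.Agent.Two.ModTwo

open Module
open Fermat.Agent.Deform Fermat.Agent.Arith Fermat.Agent.EC.Rep
open Fermat.Agent.CFT.Flat (inG tame nrm)
open Fermat.Agent.Two.Tangent (Dihedral IsDetecting CubicRecip HKummerFinite normalHom normalBasis
  normalBasisInv normalBasisInv_mul normalBasis_mul)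

theorem pow_three_of_trace : ∀ X : M2 (ZMod 2), X.det ≠ 0 → X.trace = 1 → X ^ 3 = 1 := by decide

theorem mul_rot_or_one : ∀ X Y : M2 (ZMod 2), X.det ≠ 0 → Y.det ≠ 0 →
    ¬ (X = 1 ∨ X.trace = 1) → ¬ (Y = 1 ∨ Y.trace = 1) →
      X * Y = 1 ∨ (X * Y).trace = 1 := by decide

theorem trace_eq_one_of_fixfree : ∀ X : M2 (ZMod 2), X.det ≠ 0 → (X - 1).det ≠ 0 →
    X.trace = 1 := by decide

theorem castHom_pow_one_injective : ∀ a a' : ZMod (2 ^ 1),
    ZMod.castHom (dvd_pow_self 2 one_ne_zero) (ZMod 2) a =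
      ZMod.castHom (dvd_pow_self 2 one_ne_zero) (ZMod 2) a' → a = a' := by decide

variable {W : WeierstrassCurve ℤ}

/-- The residual matrices, in the frame of the Tate module, are its reductions. -/
theorem tateMod_one_eq_one_iff [Fact (Nat.Prime 2)] (hΔ : W.Δ ≠ 0)
    {b : Basis (Fin 2) (ZMod 2) (residualRep W 2 hΔ).V}
    (hb : ∀ σ i j, matRes (residualRep W 2 hΔ) b σ i j =
      PadicInt.toZMod (matOf (tateRep W 2 hΔ) (RT.Lift.tateStdBasis (p := 2) hΔ) σ i j))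
    {σ : Gal} (h : matRes (residualRep W 2 hΔ) b σ = 1) :
    Lower.tateMod (p := 2) hΔ 1 σ = 1 := by
  refine Matrix.ext fun i j => ?_
  apply castHom_pow_one_injective
  rw [Lower.tateMod_apply, Tangent.castHom_toZModPow one_pos,
    show Lower.tateMat (p := 2) hΔ σ i j =
      matOf (tateRep W 2 hΔ) (RT.Lift.tateStdBasis (p := 2) hΔ) σ i j from rfl, ← hb, h,
    Matrix.one_apply, apply_ite (ZMod.castHom _ _), map_one, map_zero]

/-- The determinant of a residual matrix does not vanish. -/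
theorem det_hom_ne_zero (f : Gal →* M2 (ZMod 2)) (σ : Gal) : (f σ).det ≠ 0 := fun hd => by
  have h := congrArg Matrix.det (map_mul f σ σ⁻¹).symm
  rw [Matrix.det_mul, hd, zero_mul, mul_inv_cancel, map_one, Matrix.det_one] at h
  exact zero_ne_one h

/-- Inertia at an odd prime moves the square root of a number exactly divisible by it. -/
theorem exists_inertia_move {ℓ n : ℕ} [Fact ℓ.Prime] (hℓ : ℓ ≠ 2) (hn : ¬ ℓ ∣ n) {δ : QBar}
    (hδ : δ ^ 2 = -((ℓ * n : ℕ) : QBar)) : ∃ τ ∈ inG ℓ, τ δ ≠ δ := by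
  obtain ⟨τ, hτ, ⟨x, hx, hmove⟩, -⟩ := Tangent.exists_inertia_generator ℓ hℓ
  refine ⟨τ, hτ, fun hfix => ?_⟩
  have hx0 : x ≠ 0 := fun h => by
    rw [h, zero_pow two_ne_zero] at hx
    exact (Fact.out : ℓ.Prime).ne_zero (Nat.cast_eq_zero.mp hx.symm)
  have hxσ : τ x = -x := (sq_eq_sq_iff_eq_or_eq_neg.mp
    (show τ x ^ 2 = x ^ 2 by rw [← map_pow, hx, map_natCast])).resolve_left hmove
  set y := δ / x with hy
  have hy2 : y ^ 2 = -(n : QBar) := by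
    have h0 : ((ℓ : ℕ) : QBar) ≠ 0 := Nat.cast_ne_zero.mpr (Fact.out : ℓ.Prime).ne_zero
    rw [hy, div_pow, hδ, hx, Nat.cast_mul, neg_div, mul_div_cancel_left₀ _ h0]
  have hn1 : nrm ℓ y ^ 2 = 1 := by
    rw [← CFT.Flat.nrm_pow, hy2, CFT.Flat.nrm_neg, CFT.Flat.nrm_natCast_eq_one ℓ hn]
  have hy1 : nrm ℓ y = 1 :=
    (pow_eq_one_iff_of_nonneg (CFT.Flat.nrm_nonneg ℓ _) two_ne_zero).mp hn1
  have h := CFT.Flat.nrm_sub_lt_one_of_mem_inG ℓ hτ hy1.le
  have h2 : nrm ℓ (2 : QBar) = 1 := by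
    exact_mod_cast CFT.Flat.nrm_natCast_eq_one ℓ (n := 2) fun hd =>
      hℓ ((Nat.prime_dvd_prime_iff_eq Fact.out Nat.prime_two).mp hd)
  rw [show τ y - y = -((2 : QBar) * y) by rw [hy, map_div₀, hfix, hxσ, div_neg]; ring,
    CFT.Flat.nrm_neg, CFT.Flat.nrm_mul, h2, hy1, mul_one] at h
  exact lt_irrefl _ h

/-- **The setups of an auxiliary curve**, with auxiliary primes of a number independent of the
modulus. -/
theorem exists_setups (hW : TwoCurve W) {k : Type} [Field k] [CharP k 2] {ω : k}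
    (hω : ω ^ 2 + ω + 1 = 0)
    (hfin : ∀ (r : Gal →* M2 k) (D : Finset ℕ) (δ : QBar), Dihedral r D δ → HKummerFinite r)
    (hrec : ∀ (r : Gal →* M2 k) (D : Finset ℕ) (δ : QBar), Dihedral r D δ →
      (∀ σ ∈ tame 2, r σ = 1) → (∃ τ ∈ inG 2, (r τ - 1).det ≠ 0) → CubicRecip r) :
    haveI : Fact (Nat.Prime 2) := ⟨Nat.prime_two⟩
    ∃ (r : Gal →* M2 k) (D : Finset ℕ) (δ : QBar)
      (b : Basis (Fin 2) (ZMod 2) (residualRep W 2 hW.Δ_ne_zero).V) (P₀ : (M2 k)ˣ) (σ₀ : Gal),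
      (∀ σ, (↑P₀⁻¹ : M2 k) * r σ * (P₀ : M2 k) =
        (matRes (residualRep W 2 hW.Δ_ne_zero) b σ).map (ZMod.castHom (dvd_refl 2) k)) ∧
      (r σ₀ 0 1 = 0 ∧ r σ₀ 1 0 = 0 ∧ r σ₀ 0 0 ≠ r σ₀ 1 1) ∧
      (∀ ℓ : ℕ, ℓ ∈ D ↔ ℓ.Prime ∧ (ℓ : ℤ) ∣ W.Δ) ∧
      (∀ σ : Gal, σ ∈ galK W ↔ σ δ = δ) ∧
      ∃ m : ℕ, ∀ (N : ℕ) (S : Finset ℕ), 0 < N → ∃ (V : Finset ℕ) (φ : ℕ → Gal),
        V.card = m ∧ Disjoint V S ∧
        (∀ v ∈ V, AuxPrime W hW.Δ_ne_zero v N ∧ v % 12 = 1) ∧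
        Setup r D δ V φ σ₀ := by
  haveI : Fact (Nat.Prime 2) := ⟨Nat.prime_two⟩
  have hΔ := hW.Δ_ne_zero
  obtain ⟨b, hb⟩ := RT.Lift.exists_basis_residual_tateRep (p := 2) hΔ
  set r₀ : Gal →* M2 (ZMod 2) := matRes (residualRep W 2 hΔ) b with hr₀
  set D : Finset ℕ := W.Δ.natAbs.primeFactors with hDdef
  obtain ⟨δ, hδ, -, -, hgal⟩ := Basic.exists_delta hW
  have hD : ∀ ℓ : ℕ, ℓ ∈ D ↔ ℓ.Prime ∧ (ℓ : ℤ) ∣ W.Δ := fun ℓ => by
    rw [hDdef, Nat.mem_primeFactors, Int.natCast_dvd]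
    exact ⟨fun h => ⟨h.1, h.2.1⟩, fun h => ⟨h.1, h.2, Int.natAbs_ne_zero.mpr hΔ⟩⟩
  have hodd : ∀ ℓ ∈ D, ℓ ≠ 2 := fun ℓ hℓ e => hW.two_not_dvd_Δ (by
    have h := ((hD ℓ).mp hℓ).2
    rw [e] at h
    exact h)
  obtain ⟨τ₂, hτ₂, hτ₂det⟩ := Flat.exists_inertia_det_ne_zero hW b
  have hdet : ∀ σ, (r₀ σ).det ≠ 0 := det_hom_ne_zero r₀
  have hτ₂tr : (r₀ τ₂).trace = 1 := trace_eq_one_of_fixfree _ (hdet τ₂) hτ₂det
  -- rotations are the elements fixing the square roots of the discriminant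
  have hker : ∀ σ, r₀ σ = 1 → σ ∈ galK W := fun σ h =>
    Class.mem_galK_of_tateMod_eq_one hΔ (tateMod_one_eq_one_iff hΔ hb h)
  have hrotmem : ∀ σ, r₀ σ = 1 ∨ (r₀ σ).trace = 1 → σ ∈ galK W := by
    rintro σ (h | h)
    · exact hker σ h
    · have h3 : σ ^ 3 ∈ galK W := hker _ (by rw [map_pow, pow_three_of_trace _ (hdet σ) h])
      have h2 : σ ^ 2 ∈ galK W := Class.sq_mem_galK σ
      rw [show σ = (σ ^ 2)⁻¹ * σ ^ 3 by group]
      exact (galK W).mul_mem ((galK W).inv_mem h2) h3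
  have hfix : ∀ σ : Gal, σ δ = δ ↔ r₀ σ = 1 ∨ (r₀ σ).trace = 1 := by
    refine fun σ => ⟨fun h => ?_, fun h => (hgal σ).mp (hrotmem σ h)⟩
    by_contra hne
    obtain ⟨g, hg⟩ := Class.exists_notMem_galK hW.Δ_neg
    have hgne : ¬ (r₀ g = 1 ∨ (r₀ g).trace = 1) := fun h' => hg (hrotmem g h')
    have hgs : g * σ ∈ galK W := hrotmem _ (by
      rw [map_mul]
      exact mul_rot_or_one _ _ (hdet g) (hdet σ) hgne hne)
    exact hg (((galK W).mul_mem_cancel_right ((hgal σ).mpr h)).mp hgs)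
  have hprod : ∏ ℓ ∈ D, ℓ = badLevel W := rfl
  have hlevel : GaloisFactorsThroughFiniteLevel r₀ := by
    obtain ⟨L, hL, h⟩ := Lower.finite_level_tateMod (p := 2) hΔ 1
    refine ⟨L, hL, fun σ hσ => Matrix.ext fun i j => ?_⟩
    have e := congrFun (congrFun (h σ hσ) i) j
    rw [Lower.tateMod_apply] at e
    rw [hr₀, hb, ← Tangent.castHom_toZModPow one_pos,
      show matOf (tateRep W 2 hΔ) (RT.Lift.tateStdBasis (p := 2) hΔ) σ i j =
        Lower.tateMat (p := 2) hΔ σ i j from rfl, e, Matrix.one_apply,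
      apply_ite (ZMod.castHom _ _), map_one, map_zero]
  have hunram : ∀ q : ℕ, q.Prime → q ≠ 2 → q ∉ D → ∀ A : ValuationSubring QBar,
      A.LiesOverPrime q → ∀ τ ∈ A.inertiaSubgroupIn ℚ, r₀ τ = 1 := by
    intro q hq hq2 hqD A hA τ hτ
    show LinearMap.toMatrixAlgEquiv b ((residualRep W 2 hΔ).ρ τ) = 1
    rw [isUnramifiedAt_residualRep hΔ hq (fun hd => hqD ((hD q).mpr ⟨hq, hd⟩)) hq2 A hA τ hτ,
      map_one]
  have hinertia : ∀ ℓ ∈ D, ∀ A : ValuationSubring QBar, A.LiesOverPrime ℓ →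
      ∀ τ ∈ A.inertiaSubgroupIn ℚ, (r₀ τ).trace = 0 := by
    intro q hq A hA τ hτ
    have hqp := ((hD q).mp hq).1
    set b₀ := RT.Lift.tateStdBasis (p := 2) hΔ
    have hu' := isUnipotentOnInertiaAt_tateRep (p := 2) hΔ hqp (hodd q hq)
      (fun hd => hW.semistable q hqp hd.2 hd.1) A hA τ hτ
    have etr : (matOf (tateRep W 2 hΔ) b₀ τ).trace = 2 := by
      have hc := LinearMap.charpoly_toMatrix ((tateRep W 2 hΔ).ρ τ) b₀
      rw [hu', Matrix.charpoly_fin_two] at hc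
      have h1 := congrArg (fun P : Polynomial ℤ_[2] => P.coeff 1) hc
      simp [sq, Polynomial.coeff_X, Polynomial.coeff_one, sub_mul, mul_sub,
        Polynomial.coeff_sub] at h1
      show (LinearMap.toMatrix b₀ b₀ ((tateRep W 2 hΔ).ρ τ)).trace = 2
      linear_combination -h1
    rw [Matrix.trace_fin_two] at etr ⊢
    rw [hr₀, hb, hb, ← map_add, etr, map_ofNat]
    rfl
  have hdih : Dihedral ((normalHom hω).comp r₀) D δ :=
    Tangent.dihedral_normalHom hω (fun ℓ h => ((hD ℓ).mp h).1)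
      (by rw [hprod]; have := Brandt.badLevel_emod_eight hW; omega) (by rw [hprod]; exact hδ)
      hfix ⟨τ₂, hτ₂tr⟩ hlevel hunram hinertia
  set r : Gal →* M2 k := (normalHom hω).comp r₀ with hr
  have hr1 : ∀ σ, r σ = 1 ↔ r₀ σ = 1 := fun σ =>
    ⟨fun h => Tangent.normalHom_injective hω (h.trans (map_one _).symm),
      fun h => by rw [hr, MonoidHom.comp_apply, h, map_one]⟩
  let P₀ : (M2 k)ˣ :=
    ⟨normalBasisInv ω, normalBasis ω, normalBasisInv_mul hω, normalBasis_mul hω⟩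
  have hP₀ : ∀ σ, (↑P₀⁻¹ : M2 k) * r σ * (P₀ : M2 k) =
      (r₀ σ).map (ZMod.castHom (dvd_refl 2) k) := fun σ => by
    show normalBasis ω * (normalBasisInv ω * (r₀ σ).map _ * normalBasis ω) * normalBasisInv ω = _
    simp only [mul_assoc, normalBasis_mul hω, mul_one]
    rw [← mul_assoc, normalBasis_mul hω, one_mul]
  -- the rotation
  have hτ₂δ : τ₂ δ = δ := (hfix τ₂).mpr (Or.inr hτ₂tr)
  obtain ⟨ω', -, hform⟩ := hdih.form
  obtain ⟨a, ha⟩ := (hform τ₂).1 hτ₂δ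
  have hτ₂diag : r τ₂ 0 1 = 0 ∧ r τ₂ 1 0 = 0 ∧ r τ₂ 0 0 ≠ r τ₂ 1 1 := by
    refine ⟨by rw [ha]; rfl, by rw [ha]; rfl, fun e => ?_⟩
    have htr : (r τ₂).trace = 1 := by
      rw [hr, MonoidHom.comp_apply, Tangent.trace_normalHom, hτ₂tr, map_one]
    rw [Matrix.trace_fin_two, e, CharTwo.add_self_eq_zero] at htr
    exact zero_ne_one htr
  -- ramification
  have hram : ∀ ℓ ∈ D, ∀ [Fact ℓ.Prime], ∃ τ ∈ inG ℓ, τ δ ≠ δ := by
    intro ℓ hℓ _
    have hsplit : ℓ * ∏ q ∈ D.erase ℓ, q = ∏ q ∈ D, q := Finset.mul_prod_erase D id hℓ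
    refine exists_inertia_move (n := ∏ q ∈ D.erase ℓ, q) (hodd ℓ hℓ) ?_
      (by rw [hsplit, hprod]; exact hδ)
    rw [(Nat.Prime.prime Fact.out).dvd_finsetProd_iff]
    rintro ⟨q, hq, hdvd⟩
    have hqℓ := Finset.mem_erase.mp hq
    exact hqℓ.1 ((Nat.prime_dvd_prime_iff_eq Fact.out ((hD q).mp hqℓ.2).1).mp hdvd).symm
  have hmove : ∃ q : ℕ, q.Prime ∧ q ≠ 2 ∧ ¬ q ∣ 12 ∧ ∃ A : ValuationSubring QBar,
      A.LiesOverPrime q ∧ ∃ τ ∈ A.inertiaSubgroupIn ℚ, τ δ ≠ δ := by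
    obtain ⟨q, hq, hq12, hqΔ⟩ := hW.exists_bad_one_mod_twelve
    haveI : Fact q.Prime := ⟨hq⟩
    obtain ⟨τ, hτ, hmove⟩ := hram q ((hD q).mpr ⟨hq, hqΔ⟩)
    refine ⟨q, hq, fun h => by omega, fun hd => ?_, padicPlace q,
      CFT.Local.padicPlace_liesOverPrime q, τ, hτ, hmove⟩
    have := Nat.le_of_dvd (by norm_num) hd
    exact hq.ne_one (by omega)
  have hcomp : ∀ σ, r σ = 1 ↔ (residualRep W 2 hΔ).ρ σ = 1 := fun σ => by
    rw [hr1]
    show LinearMap.toMatrixAlgEquiv b ((residualRep W 2 hΔ).ρ σ) = 1 ↔ _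
    rw [← map_one (LinearMap.toMatrixAlgEquiv b), EquivLike.apply_eq_iff_eq]
  have htame : ∀ σ ∈ tame 2, r σ = 1 := fun σ hσ => (hr1 σ).mpr (Flat.matRes_tame hW b hσ)
  have hell : ∃ τ ∈ inG 2, (r τ - 1).det ≠ 0 := ⟨τ₂, hτ₂, by
    have e : (↑P₀⁻¹ : M2 k) * (r τ₂ - 1) * (P₀ : M2 k) =
        (r₀ τ₂ - 1).map (ZMod.castHom (dvd_refl 2) k) := by
      rw [mul_sub, sub_mul, mul_one, Units.inv_mul, hP₀,
        Matrix.map_sub _ (map_sub _) _ _, Matrix.map_one _ (map_zero _) (map_one _)]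
    intro h
    apply hτ₂det
    have h1 := congrArg Matrix.det e
    rw [Matrix.det_mul, Matrix.det_mul, h, mul_zero, zero_mul,
      ← RingHom.mapMatrix_apply, ← RingHom.map_det] at h1
    exact (map_eq_zero _).mp h1.symm⟩
  obtain ⟨m, hm⟩ := Tangent.exists_auxPrimes hΔ hW.semistable hdih (hfin r D δ hdih) hcomp hmove
  refine ⟨r, D, δ, b, P₀, τ₂, hP₀, hτ₂diag, hD, hgal, m, fun N S hN => ?_⟩
  obtain ⟨V, φ, hcard, hdisj, hdetect, haux⟩ := hm N S hN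
  exact ⟨V, φ, hcard, hdisj, haux,
    { dih := hdih
      detecting := hdetect
      recip := hrec r D δ hdih htame hell
      binary := ⟨P₀, fun σ i j => by
        rw [hP₀, Matrix.map_apply]
        rcases Flat.zmod_two_cases (r₀ σ i j) with e | e
        · exact Or.inl (by rw [e, map_zero])
        · exact Or.inr (by rw [e, map_one])⟩
      tame_two := htame
      elliptic := hell
      inertia_two := fun σ hσ => (hgal σ).mp (Flat.inG_le_galK hW hσ)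
      ramified := hram
      rot_fix := hτ₂δ
      rot := hτ₂diag.2.2 }⟩

end Fermat.Agent.Two.ModTwo
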