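import Mathlib.Algebra.CharP.Two
import Mathlib.FieldTheory.Finite.GaloisField

/-!
# A field of four elements
-/

set_option autoImplicit false

noncomputable section

namespace Fermat.Agent.Two.ModTwo

/-- The field of four elements. -/
abbrev F4 : Type :=
  haveI : Fact (Nat.Prime 2) := ⟨Nat.prime_two⟩
  GaloisField 2 2

theorem natCard_F4 : Nat.card F4 = 4 := by
  have : Fact (Nat.Prime 2) := ⟨Nat.prime_two⟩
  rw [GaloisField.card 2 2 two_ne_zero]
  norm_num

instance charP_F4 : CharP F4 2 :=
  haveI : Fact (Nat.Prime 2) := ⟨Nat.prime_two⟩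
  inferInstanceAs (CharP (GaloisField 2 2) 2)

theorem exists_omega_F4 : ∃ ω : F4, ω ^ 2 + ω + 1 = 0 := by
  classical
  have : Fact (Nat.Prime 2) := ⟨Nat.prime_two⟩
  have : Finite F4 := Nat.finite_of_card_ne_zero (by rw [natCard_F4]; norm_num)
  have := Fintype.ofFinite F4
  have hc : Fintype.card F4 = 4 := Nat.card_eq_fintype_card.symm.trans natCard_F4
  obtain ⟨x, h0, h1⟩ : ∃ x : F4, x ≠ 0 ∧ x ≠ 1 := by
    by_contra h
    push Not at h
    have hle : (Finset.univ : Finset F4) ⊆ {0, 1} := fun x _ => by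
      by_cases hx : x = 0 <;> simp [hx, h x]
    have := (Finset.card_le_card hle).trans Finset.card_le_two
    rw [Finset.card_univ, hc] at this
    omega
  have h3 := FiniteField.pow_card_sub_one_eq_one x h0
  rw [hc] at h3
  refine ⟨x, (mul_eq_zero.mp ?_).resolve_left (sub_ne_zero.mpr h1)⟩
  linear_combination h3

end Fermat.Agent.Two.ModTwo
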