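import Fermat.Agent.Two.ModTwo.Bound
import Fermat.Agent.Two.ModTwo.CurveSetup
import Fermat.Agent.Two.ModTwo.Four
import Fermat.Agent.Two.Recip.Galois
import Fermat.Agent.Two.Recip.KummerFinite

/-!
# The Galois half from the dihedral bound
-/

set_option autoImplicit false

noncomputable section

namespace Fermat.Agent.Two.ModTwo

open Fermat.Agent.Deform Fermat.Agent.Arith
open Fermat.Agent.Two.Tangent (Dihedral)

/-- **The Galois half**, from the dihedral bound. -/
theorem galoisInput_of (hB : DihedralInput) : GaloisInput := by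
  intro W hW
  obtain ⟨ω, hω⟩ := exists_omega_F4
  obtain ⟨r, D, δ, b, P₀, σ₀, hr, hσ₀, hD, hK, m, hm⟩ :=
    exists_setups hW hω (fun r _ _ h => Recip.hKummerFinite r h.level)
      (fun _ _ _ h ht he => Recip.cubicRecip_of h ht he)
  refine ⟨m, fun N S hN => ?_⟩
  obtain ⟨V, φ, hcard, hdisj, haux, hS⟩ := hm N S hN
  refine ⟨V, hcard, hdisj, haux, ?_⟩
  rw [← hcard]
  exact modTwoBound hW.Δ_ne_zero (hB W hW) natCard_F4 hω b P₀ hr hσ₀ hD hK hS

end Fermat.Agent.Two.ModTwo
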