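import Fermat.Agent.Two.Flat.AtTwo
import Mathlib.Algebra.QuadraticAlgebra.Basic

/-!
# Adjoining a cube root of unity to a ring of characteristic two

`Omega A` is the free quadratic extension of `A` by a root of `X ^ 2 + X + 1`: it is local when `A`
is local with residue field of two elements, maps onto every field of four elements, and orders on
the points of a representation extend to it.
-/

set_option autoImplicit false
set_option linter.style.haveILetI false
set_option linter.unusedSectionVars false

noncomputable section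

namespace Fermat.Agent.Two.ModTwo

open IsLocalRing Fermat.Agent.Arith Fermat.Agent.Deform Fermat.Agent.FiniteFlat Fermat.Agent.CFT.Flat

variable (A : Type) [CommRing A]

/-- The extension by a root of `X ^ 2 + X + 1` in characteristic two. -/
abbrev Omega : Type := QuadraticAlgebra A 1 1

instance instFiniteOmega [Finite A] : Finite (Omega A) :=
  Finite.of_equiv _ (QuadraticAlgebra.equivProd (1 : A) 1).symm

instance instCharPOmega [CharP A 2] : CharP (Omega A) 2 :=
  charP_of_injective_algebraMap QuadraticAlgebra.algebraMap_injective 2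

theorem natCard_omega : Nat.card (Omega A) = Nat.card A ^ 2 := by
  rw [Nat.card_congr (QuadraticAlgebra.equivProd (1 : A) 1), Nat.card_prod, sq]

variable {A}

/-- The root. -/
def omg : Omega A := ⟨0, 1⟩

theorem omg_sq [CharP A 2] : (omg : Omega A) ^ 2 + omg + 1 = 0 := by
  have h2 : (1 : A) + 1 = 0 := CharTwo.add_self_eq_zero 1
  ext
  · show _ = (0 : A)
    simp [omg, sq]
    exact h2
  · simp [omg, sq, h2]
    rfl

theorem eq_add_omg_mul (x : Omega A) :
    x = algebraMap A (Omega A) x.re + omg * algebraMap A (Omega A) x.im := by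
  ext <;> simp [omg]

theorem bijective_pair :
    Function.Bijective fun x : A × A =>
      algebraMap A (Omega A) x.1 + omg * algebraMap A (Omega A) x.2 := by
  refine ⟨fun x y h => ?_, fun x => ⟨(x.re, x.im), (eq_add_omg_mul x).symm⟩⟩
  have h1 := congrArg QuadraticAlgebra.re h
  have h2 := congrArg QuadraticAlgebra.im h
  simp [omg] at h1 h2
  exact Prod.ext h1 h2

theorem form_aniso : ∀ a b : ZMod 2, a * a + 1 * a * b - 1 * b * b = 0 → a = 0 ∧ b = 0 := by
  decide

variable [IsLocalRing A]

theorem exists_residue_equiv (hA : Nat.card (ResidueField A) = 2) :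
    ∃ φ : A →+* ZMod 2, Function.Surjective φ ∧ ∀ x, φ x = 0 ↔ x ∈ maximalIdeal A := by
  haveI : Finite (ResidueField A) := Nat.finite_of_card_ne_zero (by omega)
  haveI := Fintype.ofFinite (ResidueField A)
  haveI : Fact (Nat.Prime 2) := ⟨Nat.prime_two⟩
  have hcard : Fintype.card (ResidueField A) = 2 := by rw [← Nat.card_eq_fintype_card, hA]
  let e : ZMod 2 ≃+* ResidueField A := ZMod.ringEquivOfPrime _ Nat.prime_two hcard
  refine ⟨e.symm.toRingHom.comp (residue A), e.symm.surjective.comp Ideal.Quotient.mk_surjective,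
    fun x => ?_⟩
  show e.symm (residue A x) = 0 ↔ _
  rw [RingEquiv.map_eq_zero_iff, residue_eq_zero_iff]

theorem isUnit_omega_iff {φ : A →+* ZMod 2} (hφ : ∀ x, φ x = 0 ↔ x ∈ maximalIdeal A)
    (x : Omega A) : IsUnit x ↔ ¬ (φ x.re = 0 ∧ φ x.im = 0) := by
  rw [QuadraticAlgebra.isUnit_iff_norm_isUnit, ← not_iff_not, not_not]
  change x.norm ∈ nonunits A ↔ _
  rw [← mem_maximalIdeal, ← hφ, QuadraticAlgebra.norm_def]
  simp only [map_sub, map_add, map_mul, map_one]
  refine ⟨form_aniso _ _, fun ⟨h1, h2⟩ => ?_⟩
  rw [h1, h2]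
  simp

theorem isLocalRing_omega (hA : Nat.card (ResidueField A) = 2) : IsLocalRing (Omega A) := by
  obtain ⟨φ, -, hφ⟩ := exists_residue_equiv hA
  refine IsLocalRing.of_nonunits_add fun x y hx hy => ?_
  change ¬ IsUnit _ at hx hy
  show ¬ IsUnit _
  rw [isUnit_omega_iff hφ, not_not] at hx hy ⊢
  simp only [QuadraticAlgebra.re_add, QuadraticAlgebra.im_add, map_add, hx.1, hx.2, hy.1, hy.2,
    add_zero, and_self]

/-- The reduction onto a field of characteristic two with a primitive cube root of unity. -/
def redOmega {k : Type} [Field k] [CharP k 2] (φ : A →+* ZMod 2) {w : k} (hw : w ^ 2 + w + 1 = 0) :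
    Omega A →+* k :=
  letI : Algebra A k := ((ZMod.castHom (dvd_refl 2) k).comp φ).toAlgebra
  (QuadraticAlgebra.lift (R := A) (A := k) (a := 1) (b := 1) ⟨w, by
    rw [one_smul, one_smul]
    linear_combination hw - (1 + w) * (CharTwo.two_eq_zero (R := k))⟩).toRingHom

theorem redOmega_apply {k : Type} [Field k] [CharP k 2] (φ : A →+* ZMod 2) {w : k}
    (hw : w ^ 2 + w + 1 = 0) (x : Omega A) :
    redOmega φ hw x = ZMod.castHom (dvd_refl 2) k (φ x.re) +
      ZMod.castHom (dvd_refl 2) k (φ x.im) * w := by
  letI : Algebra A k := ((ZMod.castHom (dvd_refl 2) k).comp φ).toAlgebra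
  show x.re • (1 : k) + x.im • w = _
  rw [Algebra.smul_def, Algebra.smul_def, mul_one]
  rfl

/-- An order on the points extends to `Omega A`. -/
theorem nonempty_galOrder_omega [Finite A] {p : ℕ} {ρ : GQ →* M2 A} {ρ' : GQ →* M2 (Omega A)}
    (hρ : ∀ σ i j, ρ' σ i j = algebraMap A (Omega A) (ρ σ i j)) (O : GalOrder p (MVec ρ)) :
    Nonempty (GalOrder p (MVec ρ')) :=
  Flat.nonempty_galOrder_extend (algebraMap A (Omega A)) omg bijective_pair hρ O

/-- Generation. -/
theorem closure_omega {S : Set A} (hS : Subring.closure S = ⊤) :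
    Subring.closure (algebraMap A (Omega A) '' S ∪ {omg}) = ⊤ := by
  refine eq_top_iff.mpr fun x _ => ?_
  rw [eq_add_omg_mul x]
  have h : ∀ a : A, algebraMap A (Omega A) a ∈
      Subring.closure (algebraMap A (Omega A) '' S ∪ {omg}) := by
    intro a
    have h1 : a ∈ Subring.closure S := hS ▸ Subring.mem_top a
    have h2 : algebraMap A (Omega A) a ∈ (Subring.closure S).map (algebraMap A (Omega A)) :=
      ⟨a, h1, rfl⟩
    rw [RingHom.map_closure] at h2
    exact Subring.closure_mono Set.subset_union_left h2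
  exact add_mem (h _) (mul_mem (Subring.subset_closure (Or.inr rfl)) (h _))

end Fermat.Agent.Two.ModTwo
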