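import Fermat.Agent.Two.ModTwo.Pattern
import Fermat.Agent.Two.Tangent.SelTriv
import Fermat.Agent.Two.Flat.AtTwo

/-!
# Lifts of a dihedral representation in characteristic two

`Setup` collects the properties of the residual representation and of the auxiliary set, `Lift`
the conditions on a lift over a finite local ring of characteristic two in a basis diagonalising
a rotation.
-/

set_option autoImplicit false
set_option linter.style.haveILetI false
set_option linter.unusedSectionVars false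

noncomputable section

namespace Fermat.Agent.Two.ModTwo

open Fermat.Agent.Deform Fermat.Agent.Arith Fermat.Agent.FiniteFlat
open Fermat.Agent.CFT.Flat (inG tame MVec mvec_ext mvec_smul_apply)
open Fermat.Agent.Two.Tangent (Dihedral IsDetecting CubicRecip rmul_inv rinv_mul)
open scoped Pointwise

variable {k : Type} [Field k]

/-- The residual data: the dihedral representation, the detecting set, reciprocity in the cubic
field, a basis with entries `0` and `1`, the behaviour of inertia at `2` and at the bad primes and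
a rotation. -/
structure Setup (r : Gal →* M2 k) (D : Finset ℕ) (δ : QBar) (V : Finset ℕ) (φ : ℕ → Gal)
    (σ₀ : Gal) : Prop where
  dih : Dihedral r D δ
  detecting : IsDetecting r D δ V φ
  recip : CubicRecip r
  binary : ∃ P₀ : (M2 k)ˣ, ∀ σ i j,
    ((↑P₀⁻¹ : M2 k) * r σ * (P₀ : M2 k)) i j = 0 ∨ ((↑P₀⁻¹ : M2 k) * r σ * (P₀ : M2 k)) i j = 1
  tame_two : ∀ σ ∈ tame 2, r σ = 1
  elliptic : ∃ τ ∈ inG 2, (r τ - 1).det ≠ 0
  inertia_two : ∀ σ ∈ inG 2, σ δ = δ
  ramified : ∀ ℓ ∈ D, ∀ [Fact ℓ.Prime], ∃ τ ∈ inG ℓ, τ δ ≠ δ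
  rot_fix : σ₀ δ = δ
  rot : r σ₀ 0 0 ≠ r σ₀ 1 1

/-- A lift in characteristic two, with a sign at each prime of `V`. -/
structure Lift (r : Gal →* M2 k) (D V : Finset ℕ) (φ : ℕ → Gal) (σ₀ : Gal) {A : Type}
    [CommRing A] (red : A →+* k) (ρ : Gal →* M2 A) (z : ℕ → A) : Prop where
  res : ∀ σ, (ρ σ).map red = r σ
  det : ∀ σ, (ρ σ).det = 1
  level : GaloisFactorsThroughFiniteLevel ρ
  unram : ∀ q : ℕ, q.Prime → q ≠ 2 → q ∉ D → q ∉ V → ∀ P : ValuationSubring QBar,
    P.LiesOverPrime q → ∀ σ ∈ P.inertiaSubgroupIn ℚ, ρ σ = 1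
  unip : ∀ ℓ ∈ D, ∀ P : ValuationSubring QBar, P.LiesOverPrime ℓ →
    ∀ σ ∈ P.inertiaSubgroupIn ℚ, (ρ σ - 1) * (ρ σ - 1) = 0
  order : Nonempty (GalOrder 2 (MVec ρ))
  sign : ∀ v ∈ V, z v ^ 2 = 1
  trace : ∀ v ∈ V, (ρ (φ v)).trace = 0
  special : ∀ v ∈ V, ∀ [Fact v.Prime], ∀ σ ∈ inG v,
    (ρ (φ v) - z v • (1 : M2 A)) * (ρ σ - 1) = 0 ∧ (ρ σ - 1) * (ρ (φ v) - z v • (1 : M2 A)) = 0
  diag : ρ σ₀ 0 1 = 0 ∧ ρ σ₀ 1 0 = 0

variable {r : Gal →* M2 k} {D V : Finset ℕ} {δ : QBar} {φ : ℕ → Gal} {σ₀ : Gal}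
  {A : Type} [CommRing A] {red : A →+* k} {ρ : Gal →* M2 A} {z : ℕ → A}

/-- The image in a quotient of the coefficients. -/
theorem Lift.map (L : Lift r D V φ σ₀ red ρ z) [Finite A] {B : Type} [CommRing B] (f : A →+* B)
    (hf : Function.Surjective f) (red' : B →+* k) (hred : red'.comp f = red) :
    Lift r D V φ σ₀ red' (mapM f ρ) (fun v => f (z v)) where
  res σ := by
    rw [← L.res σ, ← hred]
    rfl
  det σ := by
    show ((ρ σ).map f).det = 1
    rw [← RingHom.mapMatrix_apply, ← RingHom.map_det, L.det, map_one]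
  level := by
    obtain ⟨L', hL', h⟩ := L.level
    refine ⟨L', hL', fun σ hσ => ?_⟩
    show (ρ σ).map f = 1
    rw [h σ hσ, Matrix.map_one f (map_zero f) (map_one f)]
  unram q hq hq2 hqD hqV P hP σ hσ := by
    show (ρ σ).map f = 1
    rw [L.unram q hq hq2 hqD hqV P hP σ hσ, Matrix.map_one f (map_zero f) (map_one f)]
  unip ℓ hℓ P hP σ hσ := by
    have h := congrArg f.mapMatrix (L.unip ℓ hℓ P hP σ hσ)
    rwa [map_mul, map_sub, map_one, map_zero] at h
  order := by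
    obtain ⟨O⟩ := L.order
    let π : MVec ρ →+ MVec (mapM f ρ) :=
      AddMonoidHom.mk' (fun x => MVec.mk (mapM f ρ) fun l => f (x l)) fun x y =>
        mvec_ext _ fun l => map_add f _ _
    refine ⟨O.quotient π (fun y => ?_) fun σ x => ?_⟩
    · choose g hg using fun l => hf (y l)
      exact ⟨MVec.mk ρ g, mvec_ext _ hg⟩
    · refine mvec_ext _ fun l => ?_
      show f ((σ • x : MVec ρ) l) = _
      rw [mvec_smul_apply, mvec_smul_apply, map_add, map_mul, map_mul]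
      rfl
  sign v hv := by rw [← map_pow, L.sign v hv, map_one]
  trace v hv := by
    show ((ρ (φ v)).map f).trace = 0
    have h := L.trace v hv
    rw [Matrix.trace_fin_two] at h ⊢
    rw [Matrix.map_apply, Matrix.map_apply, ← map_add, h, map_zero]
  special v hv _ σ hσ := by
    obtain ⟨h1, h2⟩ := L.special v hv σ hσ
    have e : f.mapMatrix (ρ (φ v) - z v • (1 : M2 A)) = mapM f ρ (φ v) - f (z v) • (1 : M2 B) := by
      ext i j
      simp [Matrix.one_apply, apply_ite f]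
    have e' : f.mapMatrix (ρ σ - 1) = mapM f ρ σ - 1 := by rw [map_sub, map_one]; rfl
    exact ⟨by rw [← e, ← e', ← map_mul, h1, map_zero], by rw [← e, ← e', ← map_mul, h2, map_zero]⟩
  diag := ⟨by rw [mapM_apply, L.diag.1, map_zero], by rw [mapM_apply, L.diag.2, map_zero]⟩

section CharTwo

variable [CharP A 2]

theorem Lift.sq_eq_one_bad (L : Lift r D V φ σ₀ red ρ z) {ℓ : ℕ} (hℓ : ℓ ∈ D)
    {P : ValuationSubring QBar} (hP : P.LiesOverPrime ℓ) {σ : Gal}
    (hσ : σ ∈ P.inertiaSubgroupIn ℚ) : ρ σ * ρ σ = 1 := by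
  have h := L.unip ℓ hℓ P hP σ hσ
  have h2 : ρ σ + ρ σ = 0 := by
    ext i j
    exact CharTwo.add_self_eq_zero _
  rw [sub_mul, mul_sub, mul_one, one_mul, sub_sub, sub_eq_zero, add_sub, h2, zero_sub] at h
  rw [h]
  ext i j
  exact CharTwo.neg_eq _

/-- At a bad prime inertia has image of order two, seen residually. -/
theorem Lift.eq_one_bad (S : Setup r D δ V φ σ₀) (L : Lift r D V φ σ₀ red ρ z) {ℓ : ℕ}
    (hℓ : ℓ ∈ D) {P : ValuationSubring QBar} (hP : P.LiesOverPrime ℓ) {σ : Gal}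
    (hσ : σ ∈ P.inertiaSubgroupIn ℚ) (hr : r σ = 1) : ρ σ = 1 := by
  haveI : Fact ℓ.Prime := ⟨S.dih.prime ℓ hℓ⟩
  have key : ∀ g ∈ inG ℓ, r g = 1 → ρ g = 1 := by
    obtain ⟨τ, hτ, -, hgen⟩ := CFT.Flat.exists_tame_generator ℓ
    obtain ⟨m, hm⟩ := Tangent.two_dvd_e₀ (v := ℓ) Fact.out (S.dih.ne_two hℓ)
    have hsq : ∀ g ∈ inG ℓ, ρ g * ρ g = 1 := fun g hg =>
      L.sq_eq_one_bad hℓ (CFT.Local.padicPlace_liesOverPrime ℓ) hg
    obtain ⟨L₀, hL₀, hfin⟩ := L.level
    haveI := hL₀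
    haveI : Normal ℚ QBar := IsAlgClosure.normal ℚ QBar
    let L' : IntermediateField ℚ QBar := IntermediateField.normalClosure ℚ L₀ QBar
    haveI : Normal ℚ L' := normalClosure.normal ℚ L₀ QBar
    set H : Subgroup Gal := inG ℓ ⊓ L'.fixingSubgroup
    have hH : CFT.Flat.IsLevel ℓ H := ⟨inf_le_left, L', inferInstance, le_rfl⟩
    have hker : ∀ h ∈ H, ρ h = 1 := fun h hh => hfin h fun x hx =>
      (IntermediateField.mem_fixingSubgroup_iff _ _).mp hh.2 x (L₀.le_normalClosure hx)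
    have hnorm : ∀ g ∈ inG ℓ, ∀ h ∈ H, g⁻¹ * h * g ∈ H := by
      intro g hg h hh
      refine ⟨(inG ℓ).mul_mem ((inG ℓ).mul_mem ((inG ℓ).inv_mem hg) hh.1) hg, ?_⟩
      show g⁻¹ * h * g ∈ L'.fixingSubgroup
      rw [IntermediateField.mem_fixingSubgroup_iff]
      intro x hx
      have hgx : g x ∈ L' := by
        have e := AlgEquiv.restrictNormal_commutes g L' ⟨x, hx⟩
        rw [show g x = ((g.restrictNormal L' ⟨x, hx⟩ : L') : QBar) from e.symm]
        exact (g.restrictNormal L' ⟨x, hx⟩).2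
      rw [AlgEquiv.mul_apply, AlgEquiv.mul_apply,
        (IntermediateField.mem_fixingSubgroup_iff _ _).mp hh.2 _ hgx]
      exact g.symm_apply_apply x
    have htame : ∀ t ∈ tame ℓ, ρ t = 1 := fun t ht =>
      CFT.Flat.eq_one_of_mem_tame ℓ (ρ.comp (inG ℓ).subtype) hH hnorm hker
        (fun g => by
          rw [hm, pow_mul, sq]
          show (ρ g * ρ g) ^ m = 1
          rw [hsq g g.2, one_pow]) ht
    have hform : ∀ g ∈ inG ℓ, ρ g = 1 ∨ ρ g = ρ τ := fun g hg => by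
      obtain ⟨i, hi⟩ := hgen g hg
      have e : ρ g = ρ τ ^ i := by
        rw [← map_pow, ← mul_one (ρ (τ ^ i)), ← htame _ hi, ← map_mul, mul_inv_cancel_left]
      obtain ⟨n, rfl | rfl⟩ := Nat.even_or_odd' i
      · exact Or.inl (by rw [e, pow_mul, sq, hsq τ hτ, one_pow])
      · exact Or.inr (by rw [e, pow_succ, pow_mul, sq, hsq τ hτ, one_pow, one_mul])
    intro g hg hg1
    refine (hform g hg).resolve_right fun e => ?_
    obtain ⟨τ', hτ', hmove⟩ := S.ramified ℓ hℓ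
    refine hmove (S.dih.fix_of_eq_one ?_)
    rcases hform τ' hτ' with e' | e'
    · rw [← L.res, e', Matrix.map_one red (map_zero red) (map_one red)]
    · rw [← L.res, e', ← e, L.res, hg1]
  obtain ⟨g, hgP⟩ := exists_smul_eq hP (CFT.Local.padicPlace_liesOverPrime ℓ) (S.dih.prime ℓ hℓ)
  have hmem : g * σ * g⁻¹ ∈ inG ℓ := by
    show g * σ * g⁻¹ ∈ (padicPlace ℓ).inertiaSubgroupIn ℚ
    rw [← hgP]
    exact mem_inertia_smul_iff.mpr hσ
  have h1 := key _ hmem (by rw [map_mul, map_mul, hr, mul_one, rmul_inv])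
  calc ρ σ = ρ g⁻¹ * ρ (g * σ * g⁻¹) * ρ g := by
        rw [← map_mul, ← map_mul]; congr 1; group
    _ = 1 := by rw [h1, mul_one, ← map_mul, inv_mul_cancel, map_one]

end CharTwo

end Fermat.Agent.Two.ModTwo
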