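import Fermat.Agent.Two.Interface
import Fermat.Agent.Two.ModTwo.Quadratic
import Fermat.Agent.Two.ModTwo.Setup

/-!
# From a lift over a ring with two residues to a lift in normal form

A lift of `W[2]` over `A` with residue field of two elements gives, over `A[w]` with
`w ^ 2 + w + 1 = 0`, a lift reducing exactly to a given dihedral form of `W[2]` over the field of
four elements and diagonal at a given rotation.
-/

set_option autoImplicit false
set_option linter.style.haveILetI false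
set_option linter.unusedSectionVars false

noncomputable section

namespace Fermat.Agent.Two.ModTwo

open IsLocalRing Matrix Fermat.Agent.Deform Fermat.Agent.Arith Fermat.Agent.FiniteFlat
open Fermat.Agent.EC.Rep Module
open Fermat.Agent.CFT.Flat (inG MVec mvec_ext mvec_smul_apply)

section General

variable {B : Type} [CommRing B]

/-- An order on the points transports along a change of frame. -/
theorem nonempty_galOrder_conjM {p : ℕ} (P : (M2 B)ˣ) {ρ : Gal →* M2 B}
    (O : GalOrder p (MVec ρ)) : Nonempty (GalOrder p (MVec (conjM P ρ))) := by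
  let f : MVec (conjM P ρ) → MVec ρ := fun v => MVec.mk ρ
    fun i => (P : M2 B) i 0 * v 0 + (P : M2 B) i 1 * v 1
  refine ⟨O.restrict (AddMonoidHom.mk' f fun v w => mvec_ext ρ fun i => by
      simp only [f, MVec.mk_apply, CFT.Flat.mvec_add_apply]; ring) (fun v w h => ?_) fun σ v => ?_⟩
  · have key : ∀ (u : MVec (conjM P ρ)) (i : Fin 2),
        (↑P⁻¹ : M2 B) i 0 * f u 0 + (↑P⁻¹ : M2 B) i 1 * f u 1 = u i := fun u => by
      have hinv : ∀ i j, (↑P⁻¹ : M2 B) i 0 * (P : M2 B) 0 j + (↑P⁻¹ : M2 B) i 1 * (P : M2 B) 1 j =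
          (1 : M2 B) i j := fun i j => by
        have h0 := congrFun (congrFun (Units.inv_mul P) i) j
        rwa [Matrix.mul_apply, Fin.sum_univ_two] at h0
      simp only [f, MVec.mk_apply]
      refine Fin.forall_fin_two.mpr ⟨?_, ?_⟩
      · linear_combination u 0 * (hinv 0 0).trans (Matrix.one_apply_eq 0) +
          u 1 * (hinv 0 1).trans (Matrix.one_apply_ne (by decide))
      · linear_combination u 0 * (hinv 1 0).trans (Matrix.one_apply_ne (by decide)) +
          u 1 * (hinv 1 1).trans (Matrix.one_apply_eq 1)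
    exact mvec_ext _ fun i => by rw [← key v i, ← key w i, show f v = f w from h]
  · refine mvec_ext ρ fun i => ?_
    have he : (P : M2 B) * conjM P ρ σ = ρ σ * (P : M2 B) := by
      rw [conjM_apply, ← mul_assoc, Units.mul_inv_cancel_left]
    have h0 := congrFun (congrFun he i) 0
    have h1 := congrFun (congrFun he i) 1
    rw [Matrix.mul_apply, Matrix.mul_apply, Fin.sum_univ_two, Fin.sum_univ_two] at h0 h1
    show f (σ • v : MVec (conjM P ρ)) i = (σ • (f v) : MVec ρ) i
    simp only [f, MVec.mk_apply, mvec_smul_apply]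
    linear_combination v 0 * h0 + v 1 * h1

variable [IsLocalRing B] [Finite B]

theorem exists_pow_eq_zero {b : B} (hb : b ∈ maximalIdeal B) : ∃ N : ℕ, b ^ N = 0 := by
  obtain ⟨i, j, hne, hij⟩ := Finite.exists_ne_map_eq_of_infinite (fun n : ℕ => b ^ n)
  rcases Nat.lt_or_gt_of_ne hne with h | h
  · refine ⟨i, (IsUnit.mul_left_eq_zero (isUnit_one_sub_self_of_mem_nonunits (b ^ (j - i)) ?_)).mp
      (show b ^ i * (1 - b ^ (j - i)) = 0 from ?_)⟩
    · exact (Ideal.pow_mem_of_mem _ hb _ (by omega) : b ^ (j - i) ∈ maximalIdeal B)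
    · rw [mul_sub, mul_one, ← pow_add, Nat.add_sub_cancel' h.le, hij, sub_self]
  · refine ⟨j, (IsUnit.mul_left_eq_zero (isUnit_one_sub_self_of_mem_nonunits (b ^ (i - j)) ?_)).mp
      (show b ^ j * (1 - b ^ (i - j)) = 0 from ?_)⟩
    · exact (Ideal.pow_mem_of_mem _ hb _ (by omega) : b ^ (i - j) ∈ maximalIdeal B)
    · rw [mul_sub, mul_one, ← pow_add, Nat.add_sub_cancel' h.le, ← hij, sub_self]

/-- The small root of `b x ^ 2 + e x = c` for nilpotent `b` and `c` and a unit `e`. -/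
theorem exists_small_root {b c e : B} (hb : b ∈ maximalIdeal B) (hc : c ∈ maximalIdeal B)
    (he : IsUnit e) : ∃ x ∈ maximalIdeal B, e * x = c - b * x ^ 2 := by
  obtain ⟨N, hN⟩ := exists_pow_eq_zero hb
  obtain ⟨u, hu⟩ := he.exists_left_inv
  let T : B → B := fun x => (c - b * x ^ 2) * u
  have hmem : ∀ n, T^[n] 0 ∈ maximalIdeal B := fun n => by
    induction n with
    | zero => exact Ideal.zero_mem _
    | succ n _ =>
      rw [Function.iterate_succ_apply']
      exact Ideal.mul_mem_right _ _ (Ideal.sub_mem _ hc (Ideal.mul_mem_right _ _ hb))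
  have hdvd : ∀ n, b ^ n ∣ T^[n + 1] 0 - T^[n] 0 := fun n => by
    induction n with
    | zero => rw [pow_zero]; exact one_dvd _
    | succ n ih =>
      obtain ⟨t, ht⟩ := ih
      refine ⟨-(T^[n + 1] 0 + T^[n] 0) * u * t, ?_⟩
      rw [Function.iterate_succ_apply' T (n + 1), show T^[n + 1] 0 = T (T^[n] 0) from
        Function.iterate_succ_apply' T n 0] at *
      show (c - b * T (T^[n] 0) ^ 2) * u - (c - b * T^[n] 0 ^ 2) * u = _
      linear_combination -(b * u * (T (T^[n] 0) + T^[n] 0)) * ht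
  have hfix : T^[N + 1] 0 = T^[N] 0 := by
    obtain ⟨t, ht⟩ := hdvd N
    rwa [hN, zero_mul, sub_eq_zero] at ht
  refine ⟨T^[N] 0, hmem N, ?_⟩
  conv_lhs => rw [← hfix, Function.iterate_succ_apply']
  show e * ((c - b * T^[N] 0 ^ 2) * u) = _
  linear_combination (c - b * T^[N] 0 ^ 2) * hu

end General

variable {W : WeierstrassCurve ℤ}

/-- **Normal form of a lift over `A[w]`.** -/
theorem exists_lift (hΔ : W.Δ ≠ 0) {k : Type} [Field k] [CharP k 2] (hk : Nat.card k = 4) {ω : k}
    (hω : ω ^ 2 + ω + 1 = 0) {r : Gal →* M2 k}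
    (b : Basis (Fin 2) (ZMod 2) (residualRep W 2 hΔ).V) (P₀ : (M2 k)ˣ)
    (hr : ∀ σ, (↑P₀⁻¹ : M2 k) * r σ * (P₀ : M2 k) =
      (matRes (residualRep W 2 hΔ) b σ).map (ZMod.castHom (dvd_refl 2) k))
    {σ₀ : Gal} (hσ₀ : r σ₀ 0 1 = 0 ∧ r σ₀ 1 0 = 0 ∧ r σ₀ 0 0 ≠ r σ₀ 1 1)
    {D V : Finset ℕ} (hD : ∀ ℓ : ℕ, ℓ ∈ D ↔ ℓ.Prime ∧ (ℓ : ℤ) ∣ W.Δ) {φ : ℕ → Gal}
    (hV : ∀ v ∈ V, v.Prime ∧ Odd v ∧ ∀ [Fact v.Prime], (padicPlace v).IsFrobeniusAt (φ v) v)
    {A : Type} [CommRing A] [IsLocalRing A] [Finite A] [CharP A 2]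
    (hA : Nat.card (ResidueField A) = 2)
    {ρ : Gal →* M2 A} {hρ : IsCont ρ} {z : ℕ → A} (h : IsLift W hΔ V ρ hρ z)
    (hgen : Subring.closure (Set.range (fun σ => (ρ σ).trace) ∪ z '' (V : Set ℕ)) = ⊤) :
    ∃ (A' : Type) (_ : CommRing A') (_ : IsLocalRing A') (_ : Finite A') (_ : CharP A' 2)
      (red : A' →+* k) (ρ' : Gal →* M2 A') (z' : ℕ → A') (w : A'),
      Function.Surjective red ∧ red w = ω ∧ w ^ 2 + w + 1 = 0 ∧
        Lift r D V φ σ₀ red ρ' z' ∧
        Subring.closure (Set.range (fun σ => (ρ' σ).trace) ∪ z' '' (V : Set ℕ) ∪ {w}) = ⊤ ∧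
        Nat.card A' = Nat.card A ^ 2 := by
  classical
  haveI : Fact (Nat.Prime 2) := ⟨Nat.prime_two⟩
  haveI hloc : IsLocalRing (Omega A) := isLocalRing_omega hA
  obtain ⟨φA, hφs, hφA⟩ := exists_residue_equiv hA
  set ι := algebraMap A (Omega A) with hι
  set cast := ZMod.castHom (dvd_refl 2) k with hcast
  set red := redOmega φA hω with hred
  have hredι : ∀ a, red (ι a) = cast (φA a) := fun a => by
    rw [hred, redOmega_apply]
    simp [hι, cast]
  have hredw : red omg = ω := by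
    rw [hred, redOmega_apply]
    simp [omg]
  -- surjectivity
  have hsurj : Function.Surjective red := by
    have hω0 : ω ≠ 0 := fun h0 => by rw [h0] at hω; simp at hω
    have hω1 : ω ≠ 1 := fun h1 => by
      rw [h1] at hω
      exact one_ne_zero (α := k) (by linear_combination hω - CharTwo.two_eq_zero (R := k))
    let f : ZMod 2 × ZMod 2 → k := fun x => cast x.1 + cast x.2 * ω
    have hf : Function.Injective f := by
      rintro ⟨a, b⟩ ⟨c, d⟩ e
      simp only [f] at e
      have h1 : cast (a - c) + cast (b - d) * ω = 0 := by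
        rw [map_sub, map_sub]; linear_combination e
      rcases Flat.zmod_two_cases (b - d) with hbd | hbd
      · rw [hbd, map_zero, zero_mul, add_zero] at h1
        exact Prod.ext (sub_eq_zero.mp ((map_eq_zero cast).mp h1)) (sub_eq_zero.mp hbd)
      · exfalso
        rw [hbd, map_one, one_mul] at h1
        rcases Flat.zmod_two_cases (a - c) with hac | hac <;> rw [hac] at h1
        · rw [map_zero, zero_add] at h1; exact hω0 h1
        · rw [map_one] at h1
          exact hω1 (by linear_combination h1 - CharTwo.two_eq_zero (R := k))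
    haveI : Finite k := Nat.finite_of_card_ne_zero (by omega)
    haveI := Fintype.ofFinite k
    have hb : Function.Bijective f := (Fintype.bijective_iff_injective_and_card f).mpr
      ⟨hf, by rw [← Nat.card_eq_fintype_card, ← Nat.card_eq_fintype_card, hk,
        Nat.card_prod, Nat.card_zmod]⟩
    intro x
    obtain ⟨⟨a, c⟩, rfl⟩ := hb.2 x
    obtain ⟨a', rfl⟩ := hφs a
    obtain ⟨c', rfl⟩ := hφs c
    exact ⟨ι a' + omg * ι c', by rw [map_add, map_mul, hredι, hredι, hredw]; ring⟩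
  -- the residual frame
  obtain ⟨φ', b', hb'⟩ := h.residual
  have hφb : ∀ σ i j, φA (ρ σ i j) = matRes (residualRep W 2 hΔ) b' σ i j := by
    intro σ i j
    obtain ⟨a, ha⟩ : ∃ a, φA a = matRes (residualRep W 2 hΔ) b' σ i j := hφs _
    rw [← ha]
    have h1 : residue A (ρ σ i j - a) = 0 := by
      rw [map_sub, hb', ← ha, sub_eq_zero]
      rcases Flat.zmod_two_cases (φA a) with e | e
      · rw [e, map_zero]
        exact ((residue_eq_zero_iff a).mpr ((hφA a).mp e)).symm
      · rw [e, map_one]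
        have h2 : residue A (a - 1) = 0 := (residue_eq_zero_iff _).mpr
          ((hφA _).mp (by rw [map_sub, e, map_one, sub_self]))
        rw [map_sub, map_one, sub_eq_zero] at h2
        exact h2.symm
    rw [← sub_eq_zero, ← map_sub]
    exact (hφA _).mpr ((residue_eq_zero_iff _).mp h1)
  set Q : M2 (ZMod 2) := b.toMatrix b' with hQ
  set Q' : M2 (ZMod 2) := b'.toMatrix b with hQ'
  have hQu : Q * Q' = 1 := Basis.toMatrix_mul_toMatrix_flip b b'
  have hchange : ∀ σ, Q' * matRes (residualRep W 2 hΔ) b σ * Q =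
      matRes (residualRep W 2 hΔ) b' σ := fun σ => by
    show b'.toMatrix b * LinearMap.toMatrix b b ((residualRep W 2 hΔ).ρ σ) * b.toMatrix b' =
      LinearMap.toMatrix b' b' ((residualRep W 2 hΔ).ρ σ)
    rw [basis_toMatrix_mul_linearMap_toMatrix, linearMap_toMatrix_mul_basis_toMatrix]
  set M : M2 k := (P₀ : M2 k) * Q.map cast with hM
  set M' : M2 k := Q'.map cast * (↑P₀⁻¹ : M2 k) with hM'
  have hMM : M * M' = 1 := by
    rw [hM, hM', mul_assoc, ← mul_assoc (Q.map cast), ← Matrix.map_mul, hQu,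
      Matrix.map_one _ (map_zero _) (map_one _), one_mul, Units.mul_inv]
  have hres₀ : ∀ σ, M' * r σ * M = ((mapM ι ρ σ).map red) := fun σ => by
    have h1 : (mapM ι ρ σ).map red = (matRes (residualRep W 2 hΔ) b' σ).map cast :=
      Matrix.ext fun i j => by simp [hredι, hφb]
    rw [h1, ← hchange, Matrix.map_mul, Matrix.map_mul, ← hr, hM, hM']
    simp only [mul_assoc]
  -- lift the frame
  choose g hg using hsurj
  let N : M2 (Omega A) := Matrix.of fun i j => g (M' i j)
  have hN : N.map red = M' := Matrix.ext fun i j => hg _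
  have hNu : IsUnit N := by
    rw [Matrix.isUnit_iff_isUnit_det]
    refine Flat.isUnit_of_red_ne_zero red (fun x => ⟨g x, hg x⟩) ?_
    rw [RingHom.map_det, RingHom.mapMatrix_apply, hN]
    intro h0
    have := congrArg Matrix.det hMM
    rw [Matrix.det_mul, h0, mul_zero, Matrix.det_one] at this
    exact zero_ne_one this
  set ρ₁ := conjM hNu.unit (mapM ι ρ) with hρ₁
  have hmapinv : (↑hNu.unit⁻¹ : M2 (Omega A)).map red = M := by
    have h1 : (↑hNu.unit⁻¹ : M2 (Omega A)).map red * M' = 1 := by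
      rw [← hN, ← Matrix.map_mul]
      have := hNu.val_inv_mul
      rw [this, Matrix.map_one _ (map_zero _) (map_one _)]
    calc _ = (↑hNu.unit⁻¹ : M2 (Omega A)).map red * (M' * M) := by
          rw [mul_eq_one_comm.mp hMM, mul_one]
      _ = M := by rw [← mul_assoc, h1, one_mul]
  have hres₁ : ∀ σ, (ρ₁ σ).map red = r σ := fun σ => by
    rw [hρ₁, conjM_apply, Matrix.map_mul, Matrix.map_mul, hmapinv, IsUnit.unit_spec, hN, ← hres₀]
    calc M * (M' * r σ * M) * M' = (M * M') * r σ * (M * M') := by simp only [mul_assoc]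
      _ = r σ := by rw [hMM, one_mul, mul_one]
  -- diagonalise
  set a₀ := ρ₁ σ₀ 0 0 with ha₀
  set b₀ := ρ₁ σ₀ 0 1 with hb₀
  set c₀ := ρ₁ σ₀ 1 0 with hc₀
  set d₀ := ρ₁ σ₀ 1 1 with hd₀
  have hent : ∀ i j, red (ρ₁ σ₀ i j) = r σ₀ i j := fun i j => by rw [← hres₁]; rfl
  have hker : ∀ x : Omega A, red x = 0 → x ∈ maximalIdeal (Omega A) := fun x hx =>
    (mem_maximalIdeal x).mpr fun hu => (hu.map red).ne_zero hx
  have hb₀m : b₀ ∈ maximalIdeal (Omega A) := hker _ (by rw [hb₀, hent, hσ₀.1])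
  have hc₀m : c₀ ∈ maximalIdeal (Omega A) := hker _ (by rw [hc₀, hent, hσ₀.2.1])
  have hadu : IsUnit (a₀ - d₀) := Flat.isUnit_of_red_ne_zero red (fun x => ⟨g x, hg x⟩) (by
    rw [map_sub, ha₀, hd₀, hent, hent, sub_ne_zero]; exact hσ₀.2.2)
  obtain ⟨x, hxm, hx⟩ := exists_small_root hb₀m hc₀m hadu
  obtain ⟨y, hym, hy⟩ := exists_small_root hc₀m hb₀m hadu.neg
  set U : M2 (Omega A) := !![1, y; x, 1] with hU
  have hxred : red x = 0 := by
    by_contra h0
    exact (mem_maximalIdeal x).mp hxm (Flat.isUnit_of_red_ne_zero red (fun x => ⟨g x, hg x⟩) h0)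
  have hyred : red y = 0 := by
    by_contra h0
    exact (mem_maximalIdeal y).mp hym (Flat.isUnit_of_red_ne_zero red (fun x => ⟨g x, hg x⟩) h0)
  have hUred : U.map red = 1 := by
    ext i j; fin_cases i <;> fin_cases j <;> simp [hU, hxred, hyred]
  have hUu : IsUnit U := by
    rw [Matrix.isUnit_iff_isUnit_det]
    refine Flat.isUnit_of_red_ne_zero red (fun x => ⟨g x, hg x⟩) ?_
    rw [RingHom.map_det, RingHom.mapMatrix_apply, hUred, Matrix.det_one]
    exact one_ne_zero
  set ρ' := conjM hUu.unit ρ₁ with hρ'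
  have hUinv : (↑hUu.unit⁻¹ : M2 (Omega A)).map red = 1 := by
    have h1 : (↑hUu.unit⁻¹ : M2 (Omega A)).map red * U.map red = 1 := by
      rw [← Matrix.map_mul, hUu.val_inv_mul, Matrix.map_one _ (map_zero _) (map_one _)]
    rwa [hUred, mul_one] at h1
  have hdiag : ρ' σ₀ 0 1 = 0 ∧ ρ' σ₀ 1 0 = 0 := by
    set dg : M2 (Omega A) := !![a₀ + b₀ * x, 0; 0, c₀ * y + d₀] with hdg
    have hmul : ρ₁ σ₀ * U = U * dg := by
      rw [Matrix.eta_fin_two (ρ₁ σ₀), hU, hdg, ← ha₀, ← hb₀, ← hc₀, ← hd₀, Matrix.mul_fin_two,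
        Matrix.mul_fin_two]
      refine Matrix.ext fun i j => ?_
      fin_cases i <;> fin_cases j <;> simp
      · linear_combination -hy
      · linear_combination -hx
    have e : ρ' σ₀ = dg := by
      rw [hρ', conjM_apply, mul_assoc, IsUnit.unit_spec, hmul, ← mul_assoc, hUu.val_inv_mul, one_mul]
    rw [e, hdg]
    exact ⟨rfl, rfl⟩
  -- transfer
  have hdetA : ∀ σ, (ρ σ).det = 1 := fun σ => by
    have h1 := h.detCyclotomic.2 1 σ 1 fun μ hμ => by
      rw [pow_one] at hμ
      rcases sq_eq_one_iff.mp hμ with rfl | rfl <;> simp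
    have h2 : ((2 ^ 1 : ℕ) : A) = 0 := by rw [pow_one]; exact CharP.cast_eq_zero A 2
    rw [h2, Ideal.span_singleton_eq_bot.mpr rfl, Ideal.mem_bot, sub_eq_zero, Nat.cast_one] at h1
    rw [← h1]
    exact (LinearMap.det_toLin' (ρ σ)).symm
  have hdetU : ∀ (P : (M2 (Omega A))ˣ) (X : M2 (Omega A)),
      ((↑P⁻¹ : M2 (Omega A)) * X * (P : M2 (Omega A))).det = X.det := fun P X =>
    Matrix.det_units_conj' P X
  have htr : ∀ σ, (ρ' σ).trace = ι (ρ σ).trace := fun σ => by
    rw [hρ', conjM_apply, Matrix.trace_units_conj', hρ₁, conjM_apply, Matrix.trace_units_conj',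
      Matrix.trace_fin_two, Matrix.trace_fin_two, mapM_apply, mapM_apply, map_add]
  let Φ : Gal →* M2 (Omega A) := mapM ι ρ
  have hΦ' : ∀ σ, ρ' σ = (↑(hNu.unit * hUu.unit)⁻¹ : M2 (Omega A)) * Φ σ *
      (↑(hNu.unit * hUu.unit) : M2 (Omega A)) := fun σ => by
    rw [hρ', conjM_apply, hρ₁, conjM_apply]
    simp [Φ, mul_assoc]
  set P := hNu.unit * hUu.unit
  have hone : ∀ σ, ρ σ = 1 → ρ' σ = 1 := fun σ e => by
    rw [hΦ']
    have : Φ σ = 1 := by
      show (ρ σ).map ι = 1
      rw [e, Matrix.map_one _ (map_zero _) (map_one _)]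
    rw [this, mul_one, Units.inv_mul]
  refine ⟨Omega A, inferInstance, hloc, inferInstance, inferInstance, red, ρ', fun v => ι (z v),
    omg, fun x => ⟨g x, hg x⟩, hredw, omg_sq, ?_, ?_, natCard_omega A⟩
  · refine ⟨fun σ => ?_, fun σ => ?_, ?_, fun q hq hq2 hqD hqV Pq hP σ hσ => ?_,
      fun ℓ hℓ Pl hP σ hσ => ?_, ?_, fun v hv => ?_, fun v hv => ?_, fun v hv _ σ hσ => ?_,
      hdiag⟩
    · rw [hρ', conjM_apply, Matrix.map_mul, Matrix.map_mul, IsUnit.unit_spec, hUred, hUinv,
        one_mul, mul_one, hres₁]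
    · rw [hΦ', hdetU, show Φ σ = (ρ σ).map ι from rfl, ← RingHom.mapMatrix_apply,
        ← RingHom.map_det, hdetA, map_one]
    · obtain ⟨n, hn⟩ : ∃ n : ℕ, maximalIdeal A ^ n = ⊥ := by
        haveI : IsArtinianRing A := isArtinian_of_finite
        obtain ⟨n, hn⟩ := IsArtinianRing.isNilpotent_jacobson_bot (R := A)
        exact ⟨n, by rw [← IsLocalRing.jacobson_eq_maximalIdeal ⊥ bot_ne_top]; exact hn⟩
      obtain ⟨L, hL, hfin⟩ := hρ.finiteLevel hn
      exact ⟨L, hL, fun σ hσ => hone σ (hfin σ hσ)⟩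
    · refine hone σ (h.unramified q hq hq2 ?_ hqV Pq hP σ hσ)
      exact fun hdvd => hqD ((hD q).mpr ⟨hq, hdvd⟩)
    · have h1 := congrArg ι.mapMatrix (h.unipotent ℓ ((hD ℓ).mp hℓ).1 ((hD ℓ).mp hℓ).2 Pl hP σ hσ)
      rw [map_mul, map_sub, map_one, map_zero, show ι.mapMatrix (ρ σ) = Φ σ from rfl] at h1
      rw [hΦ', show (↑P⁻¹ : M2 (Omega A)) * Φ σ * (P : M2 (Omega A)) - 1 =
        (↑P⁻¹ : M2 (Omega A)) * (Φ σ - 1) * (P : M2 (Omega A)) by
          rw [mul_sub, sub_mul, mul_one, Units.inv_mul],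
        show ∀ X : M2 (Omega A), (↑P⁻¹ : M2 (Omega A)) * X * (P : M2 (Omega A)) *
          ((↑P⁻¹ : M2 (Omega A)) * X * (P : M2 (Omega A))) =
          (↑P⁻¹ : M2 (Omega A)) * (X * X) * (P : M2 (Omega A)) from fun X => by
            simp only [mul_assoc, Units.mul_inv_cancel_left],
        h1, mul_zero, zero_mul]
    · obtain ⟨O⟩ := Flat.nonempty_galOrder_of_isFlatAt hρ h.flat
      obtain ⟨O'⟩ := nonempty_galOrder_omega (ρ' := Φ) (fun σ i j => rfl) O
      obtain ⟨O₁⟩ := nonempty_galOrder_conjM hNu.unit O'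
      exact nonempty_galOrder_conjM hUu.unit O₁
    · rw [← map_pow, h.sign_sq v hv, map_one]
    · obtain ⟨hp, hodd, hfr⟩ := hV v hv
      haveI : Fact v.Prime := ⟨hp⟩
      rw [htr, (h.special v hv (padicPlace v) (CFT.Local.padicPlace_liesOverPrime v) (φ v) hfr).1]
      obtain ⟨t, rfl⟩ := hodd
      have : ((2 * t + 1 : ℕ) : A) + 1 = 0 := by
        push_cast
        linear_combination ((t : A) + 1) * CharTwo.two_eq_zero (R := A)
      rw [this, mul_zero, map_zero]
    · obtain ⟨-, hodd, hfr⟩ := hV v hv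
      obtain ⟨-, hrel⟩ := h.special v hv (padicPlace v) (CFT.Local.padicPlace_liesOverPrime v)
        (φ v) hfr
      obtain ⟨h1, h2⟩ := hrel σ hσ
      have hv1 : (v : A) = 1 := by
        obtain ⟨t, rfl⟩ := hodd
        push_cast
        linear_combination (t : A) * CharTwo.two_eq_zero (R := A)
      rw [hv1, mul_one] at h1
      have e1 : ∀ c : A, ρ' (φ v) - ι c • (1 : M2 (Omega A)) =
          (↑P⁻¹ : M2 (Omega A)) * ι.mapMatrix (ρ (φ v) - c • (1 : M2 A)) * (P : M2 (Omega A)) := by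
        intro c
        have hc : ι.mapMatrix (c • (1 : M2 A)) = ι c • (1 : M2 (Omega A)) := by
          exact Matrix.ext fun i j => by simp [Matrix.one_apply, apply_ite ι]
        rw [map_sub, hc, hΦ', mul_sub, sub_mul, mul_smul_comm, mul_one, smul_mul_assoc,
          Units.inv_mul]
        rfl
      have e2 : ρ' σ - 1 =
          (↑P⁻¹ : M2 (Omega A)) * ι.mapMatrix (ρ σ - 1) * (P : M2 (Omega A)) := by
        rw [map_sub, map_one, hΦ', mul_sub, sub_mul, mul_one, Units.inv_mul]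
        rfl
      have hcomb : ∀ X Y : M2 A, X * Y = 0 →
          (↑P⁻¹ : M2 (Omega A)) * ι.mapMatrix X * (P : M2 (Omega A)) *
            ((↑P⁻¹ : M2 (Omega A)) * ι.mapMatrix Y * (P : M2 (Omega A))) = 0 := fun X Y e => by
        calc _ = (↑P⁻¹ : M2 (Omega A)) * (ι.mapMatrix X * ι.mapMatrix Y) * (P : M2 (Omega A)) := by
              simp only [mul_assoc, Units.mul_inv_cancel_left]
          _ = 0 := by rw [← map_mul, e, map_zero, mul_zero, zero_mul]
      exact ⟨by rw [e1, e2]; exact hcomb _ _ h1, by rw [e1, e2]; exact hcomb _ _ h2⟩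
  · have himg : Set.range (fun σ => (ρ' σ).trace) ∪ (fun v => ι (z v)) '' (V : Set ℕ) =
        ι '' (Set.range (fun σ => (ρ σ).trace) ∪ z '' (V : Set ℕ)) := by
      rw [Set.image_union, ← Set.range_comp, Set.image_image]
      congr 1
      exact congrArg Set.range (funext htr)
    rw [himg]
    exact closure_omega hgen

end Fermat.Agent.Two.ModTwo
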