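import Fermat.Agent.Two.ModTwo.Socle

/-!
# Lifts in characteristic two are monomial and unramified

Induction on the number of elements of the coefficient ring, along a socle element.
-/

set_option autoImplicit false
set_option linter.style.haveILetI false
set_option linter.unusedSectionVars false

noncomputable section

namespace Fermat.Agent.Two.ModTwo

open Fermat.Agent.Deform Fermat.Agent.Arith

variable {k : Type} [Field k] [CharP k 2] {r : Gal →* M2 k} {D V : Finset ℕ} {δ : QBar}
  {φ : ℕ → Gal} {σ₀ : Gal}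

theorem isMono_of_card (S : Setup r D δ V φ σ₀) : ∀ (n : ℕ) (A : Type) [CommRing A]
    [IsLocalRing A] [Finite A] [CharP A 2] (red : A →+* k), Function.Surjective red →
    ∀ (ρ : Gal →* M2 A) (z : ℕ → A), Lift r D V φ σ₀ red ρ z → Nat.card A = n → IsMono δ ρ := by
  intro n
  induction n using Nat.strong_induction_on with
  | _ n ih =>
  intro A _ _ _ _ red hred ρ z L hn
  have hker : RingHom.ker red = IsLocalRing.maximalIdeal A :=
    IsLocalRing.eq_maximalIdeal (RingHom.ker_isMaximal_of_surjective red hred)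
  by_cases h0 : IsLocalRing.maximalIdeal A = ⊥
  · have hinj : Function.Injective red := (RingHom.injective_iff_ker_eq_bot red).mpr (hker.trans h0)
    have hρ : ∀ σ i j, red (ρ σ i j) = r σ i j := fun σ i j => congrFun (congrFun (L.res σ) i) j
    refine ⟨fun σ i j hij => hinj ?_, fun q _ P _ τ _ hfix => hinj ?_⟩
    · rw [hρ, map_zero, pat_r S.dih σ i j hij]
    · obtain ⟨ω, hω, hform⟩ := S.dih.form
      obtain ⟨a, ha⟩ := (hform τ).1 hfix
      rw [map_pow, hρ, ha, map_one]
      show (ω ^ a) ^ 3 = 1
      rw [← pow_mul, mul_comm, pow_mul, Tangent.omega_cube hω, one_pow]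
  -- a socle element
  obtain ⟨ε, hε, hεm, hsoc⟩ : ∃ ε : A, ε ≠ 0 ∧ red ε = 0 ∧ ∀ x, red x = 0 → ε * x = 0 := by
    classical
    have hnil : IsNilpotent (IsLocalRing.maximalIdeal A) := by
      rw [← IsLocalRing.jacobson_eq_maximalIdeal (⊥ : Ideal A) bot_ne_top]
      exact IsArtinianRing.isNilpotent_jacobson_bot
    obtain ⟨m, hm⟩ := hnil
    have hex : ∃ m, IsLocalRing.maximalIdeal A ^ m = ⊥ := ⟨m, hm⟩
    set N := Nat.find hex with hN
    have hN1 : IsLocalRing.maximalIdeal A ^ N = ⊥ := Nat.find_spec hex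
    have h2 : 2 ≤ N := by
      by_contra h
      interval_cases N
      · rw [pow_zero, Ideal.one_eq_top] at hN1
        exact top_ne_bot hN1
      · exact h0 (by rwa [pow_one] at hN1)
    obtain ⟨ε, hεmem, hε⟩ := Submodule.exists_mem_ne_zero_of_ne_bot
      (Nat.find_min hex (show N - 1 < Nat.find hex by omega))
    refine ⟨ε, hε, ?_, fun x hx => ?_⟩
    · rw [← RingHom.mem_ker, hker]
      exact Ideal.pow_le_self (by omega) hεmem
    · rw [← RingHom.mem_ker, hker] at hx
      have h := Ideal.mul_mem_mul hεmem hx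
      rwa [← pow_succ, show N - 1 + 1 = N by omega, hN1, Ideal.mem_bot] at h
  -- the quotient
  set I : Ideal A := Ideal.span {ε} with hI
  have hIle : I ≤ RingHom.ker red := (Ideal.span_singleton_le_iff_mem _).mpr hεm
  have hItop : I ≠ ⊤ := fun h => RingHom.ker_ne_top red (top_le_iff.mp (h ▸ hIle))
  haveI : Nontrivial (A ⧸ I) := Ideal.Quotient.nontrivial_iff.mpr hItop
  haveI : Finite (A ⧸ I) := Finite.of_surjective _ Ideal.Quotient.mk_surjective
  haveI : IsLocalRing (A ⧸ I) :=
    IsLocalRing.of_surjective' (Ideal.Quotient.mk I) Ideal.Quotient.mk_surjective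
  haveI : CharP (A ⧸ I) 2 := (CharP.charP_iff_prime_eq_zero Nat.prime_two).mpr (by
    rw [← map_natCast (Ideal.Quotient.mk I), CharP.cast_eq_zero, map_zero])
  let red' : A ⧸ I →+* k := Ideal.Quotient.lift I red fun x hx => RingHom.mem_ker.mp (hIle hx)
  have hred' : Function.Surjective red' := fun x => by
    obtain ⟨a, rfl⟩ := hred x
    exact ⟨Ideal.Quotient.mk I a, rfl⟩
  have hlt : Nat.card (A ⧸ I) < n := by
    rw [← hn]
    refine lt_of_le_of_ne (Nat.card_le_card_of_surjective _ Ideal.Quotient.mk_surjective)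
      fun e => hε ?_
    have hbij := (Nat.bijective_iff_surjective_and_card _).mpr
      ⟨Ideal.Quotient.mk_surjective (I := I), e.symm⟩
    exact hbij.1 ((Ideal.Quotient.eq_zero_iff_mem.mpr (Ideal.mem_span_singleton_self ε)).trans
      (map_zero _).symm)
  exact isMono_step S L hred hε hεm hsoc
    (fun x hx => Ideal.mem_span_singleton.mp (Ideal.Quotient.eq_zero_iff_mem.mp hx))
    (ih _ hlt (A ⧸ I) red' hred' _ _
      (L.map (Ideal.Quotient.mk I) Ideal.Quotient.mk_surjective red' (Ideal.Quotient.lift_comp_mk I red _))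
      rfl)

/-- **Lifts in characteristic two are monomial, with an unramified diagonal character.** -/
theorem isMono (S : Setup r D δ V φ σ₀) {A : Type} [CommRing A] [IsLocalRing A] [Finite A]
    [CharP A 2] {red : A →+* k} (hred : Function.Surjective red) {ρ : Gal →* M2 A} {z : ℕ → A}
    (L : Lift r D V φ σ₀ red ρ z) : IsMono δ ρ :=
  isMono_of_card S _ A red hred ρ z L rfl

end Fermat.Agent.Two.ModTwo
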