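import Fermat.Agent.Two.ModTwo.Count
import Fermat.Agent.Two.ModTwo.Extend
import Fermat.Agent.Two.ModTwo.Mono

/-!
# The bound on rings in characteristic two

A lift over a ring with residue field of two elements gives a monomial lift over its extension by
a cube root of unity, whose size is controlled by the dihedral bound and the signs.
-/

set_option autoImplicit false
set_option linter.style.haveILetI false
set_option linter.unusedSectionVars false

noncomputable section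

namespace Fermat.Agent.Two.ModTwo

open Matrix Module IsLocalRing Fermat.Agent.Deform Fermat.Agent.Arith Fermat.Agent.EC.Rep

variable {W : WeierstrassCurve ℤ}

/-- **The rings generated by lifts have at most `2 ^ (classTwo W * 2 ^ #V)` elements.** -/
theorem modTwoBound (hΔ : W.Δ ≠ 0) (hB : DihedralBound W) {k : Type} [Field k] [CharP k 2]
    (hk : Nat.card k = 4) {ω : k} (hω : ω ^ 2 + ω + 1 = 0) {r : Gal →* M2 k}
    (b : Basis (Fin 2) (ZMod 2) (residualRep W 2 hΔ).V) (P₀ : (M2 k)ˣ)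
    (hr : ∀ σ, (↑P₀⁻¹ : M2 k) * r σ * (P₀ : M2 k) =
      (matRes (residualRep W 2 hΔ) b σ).map (ZMod.castHom (dvd_refl 2) k))
    {D V : Finset ℕ} {δ : QBar} {φ : ℕ → Gal} {σ₀ : Gal}
    (hσ₀ : r σ₀ 0 1 = 0 ∧ r σ₀ 1 0 = 0 ∧ r σ₀ 0 0 ≠ r σ₀ 1 1)
    (hD : ∀ ℓ : ℕ, ℓ ∈ D ↔ ℓ.Prime ∧ (ℓ : ℤ) ∣ W.Δ) (hK : ∀ σ, σ ∈ galK W ↔ σ δ = δ)
    (S : Setup r D δ V φ σ₀) : ModTwoBound W hΔ V (classTwo W * 2 ^ V.card) := by
  intro A _ _ _ _ hA ρ hρ z hlift hgen
  obtain ⟨A', _, _, _, _, red, ρ', z', w, hred, -, hw, L, hgen', hcard⟩ :=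
    exists_lift hΔ hk hω b P₀ hr hσ₀ hD (φ := φ)
      (fun v hv => ⟨(S.detecting.prime v hv).1,
        Nat.odd_iff.mpr (by have := (S.detecting.prime v hv).2.1; omega),
        (S.detecting.frob v hv).1⟩) hA hlift hgen
  have h := card_le (isMono S hred L) L (galK W) hK S.dih hred hw hgen' (c := classTwo W) hB
  rw [hcard, show 2 * (classTwo W * 2 ^ V.card) = classTwo W * 2 ^ V.card * 2 by ring, pow_mul] at h
  exact (Nat.pow_le_pow_iff_left two_ne_zero).mp h

end Fermat.Agent.Two.ModTwo
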