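import Fermat.Agent.Two.ModTwo.Socle
import Mathlib.GroupTheory.PGroup
import Mathlib.Algebra.Algebra.ZMod
import Mathlib.RingTheory.Artinian.Ring

/-!
# The size of a ring generated by a monomial lift

The cube of the diagonal character is a dihedral everywhere unramified character with values in a
`2`-group; the ring is spanned over the prime field by products of a power of the cube root of
unity, a value of this character and signs.
-/

set_option autoImplicit false
set_option linter.style.haveILetI false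
set_option linter.unusedSectionVars false

noncomputable section

namespace Fermat.Agent.Two.ModTwo

open Fermat.Agent.Deform Fermat.Agent.Arith
open Fermat.Agent.Two.Tangent (Dihedral)

variable {k : Type} [Field k] [CharP k 2] {r : Gal →* M2 k} {D V : Finset ℕ} {δ : QBar}
  {φ : ℕ → Gal} {σ₀ : Gal} {A : Type} [CommRing A] [IsLocalRing A] [Finite A] [CharP A 2]
  {red : A →+* k} {ρ : Gal →* M2 A} {z : ℕ → A}

/-- In a local ring of characteristic two with a root `w` of `X ^ 2 + X + 1`, the cube roots of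
one are the powers of `w`. -/
theorem cube_root_cases {w : A} (hw : w ^ 2 + w + 1 = 0) {t : A} (ht : t ^ 3 = 1) :
    t = 1 ∨ t = w ∨ t = w ^ 2 := by
  have h2 : (2 : A) = 0 := CharTwo.two_eq_zero
  have hw3 : w ^ 3 = 1 := by linear_combination (w - 1) * hw
  have hwu : IsUnit w := IsUnit.of_pow_eq_one hw3 (by norm_num)
  have hprod : (t - 1) * (t - w) * (t - w ^ 2) = 0 := by
    linear_combination ht - (t ^ 2 - t * w + w - 1) * hw
  have hd1 : IsUnit ((t - 1) - (t - w)) := by
    rw [show (t - 1) - (t - w) = w ^ 2 by linear_combination -hw + w * h2]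
    exact hwu.pow 2
  have hd2 : IsUnit ((t - 1) - (t - w ^ 2)) := by
    rw [show (t - 1) - (t - w ^ 2) = w by linear_combination hw - (w + 1) * h2]
    exact hwu
  have hd3 : IsUnit ((t - w) - (t - w ^ 2)) := by
    rw [show (t - w) - (t - w ^ 2) = 1 by linear_combination hw - (w + 1) * h2]
    exact isUnit_one
  have hor : ∀ a b : A, IsUnit (a - b) → IsUnit a ∨ IsUnit b := fun a b h => by
    rw [sub_eq_add_neg] at h
    exact (IsLocalRing.isUnit_or_isUnit_of_isUnit_add h).imp id fun h' => by simpa using h'.neg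
  rcases hor _ _ hd1 with ha | hb
  · rw [mul_assoc, ha.mul_right_eq_zero] at hprod
    rcases hor _ _ hd3 with hb | hc
    · rw [hb.mul_right_eq_zero] at hprod
      exact Or.inr (Or.inr (sub_eq_zero.mp hprod))
    · rw [hc.mul_left_eq_zero] at hprod
      exact Or.inr (Or.inl (sub_eq_zero.mp hprod))
  · rcases hor _ _ hd2 with ha | hc
    · rw [mul_assoc, ha.mul_right_eq_zero, hb.mul_right_eq_zero] at hprod
      exact Or.inr (Or.inr (sub_eq_zero.mp hprod))
    · rw [hc.mul_left_eq_zero, hb.mul_left_eq_zero] at hprod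
      exact Or.inl (sub_eq_zero.mp hprod)

/-- Units congruent to one form a `2`-group. -/
theorem isPGroup_of_red_eq_one (hred : Function.Surjective red) (H : Subgroup Aˣ)
    (hH : ∀ u ∈ H, red (u : A) = 1) : IsPGroup 2 H := fun u => by
  have hmem : (u : Aˣ).val - 1 ∈ IsLocalRing.maximalIdeal A := by
    rw [← IsLocalRing.eq_maximalIdeal (RingHom.ker_isMaximal_of_surjective red hred),
      RingHom.mem_ker, map_sub, hH _ u.2, map_one, sub_self]
  obtain ⟨m, hm⟩ : IsNilpotent ((u : Aˣ).val - 1) := by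
    obtain ⟨m, hm⟩ : IsNilpotent (IsLocalRing.maximalIdeal A) := by
      rw [← IsLocalRing.jacobson_eq_maximalIdeal (⊥ : Ideal A) bot_ne_top]
      exact IsArtinianRing.isNilpotent_jacobson_bot
    exact ⟨m, by simpa [hm] using Ideal.pow_mem_pow hmem m⟩
  haveI : Fact (Nat.Prime 2) := ⟨Nat.prime_two⟩
  refine ⟨m, Subtype.ext (Units.ext ?_)⟩
  have h0 : ((u : Aˣ).val - 1) ^ 2 ^ m = 0 := pow_eq_zero_of_le Nat.lt_two_pow_self.le hm
  rw [sub_pow_char_pow, one_pow, sub_eq_zero] at h0
  simpa using h0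

/-- A `ZMod 2`-submodule spanned by a family closed under products is closed under products. -/
theorem mul_mem_span {ι : Type} [Algebra (ZMod 2) A] (e : ι → A)
    (he : ∀ i j, e i * e j ∈ Submodule.span (ZMod 2) (Set.range e)) {x y : A}
    (hx : x ∈ Submodule.span (ZMod 2) (Set.range e))
    (hy : y ∈ Submodule.span (ZMod 2) (Set.range e)) :
    x * y ∈ Submodule.span (ZMod 2) (Set.range e) := by
  induction hx using Submodule.span_induction with
  | mem a ha =>
    obtain ⟨i, rfl⟩ := ha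
    induction hy using Submodule.span_induction with
    | mem b hb => obtain ⟨j, rfl⟩ := hb; exact he i j
    | zero => rw [mul_zero]; exact zero_mem _
    | add b c _ _ hb hc => rw [mul_add]; exact add_mem hb hc
    | smul s b _ hb => rw [mul_smul_comm]; exact Submodule.smul_mem _ s hb
  | zero => rw [zero_mul]; exact zero_mem _
  | add a b _ _ ha hb => rw [add_mul]; exact add_mem ha hb
  | smul s a _ ha => rw [smul_mul_assoc]; exact Submodule.smul_mem _ s ha

/-- A ring in which a spanning family is closed under products and contains generators. -/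
theorem card_le_of_span {ι : Type} [Finite ι] (e : ι → A) {S : Set A}
    (hS : Subring.closure S = ⊤) [Algebra (ZMod 2) A]
    (h1 : (1 : A) ∈ Submodule.span (ZMod 2) (Set.range e))
    (he : ∀ i j, e i * e j ∈ Submodule.span (ZMod 2) (Set.range e))
    (hgen : ∀ x ∈ S, x ∈ Submodule.span (ZMod 2) (Set.range e)) :
    Nat.card A ≤ 2 ^ Nat.card ι := by
  classical
  haveI := Fintype.ofFinite ι
  have htop : ∀ x : A, x ∈ Submodule.span (ZMod 2) (Set.range e) := by
    intro x
    have hx : x ∈ Subring.closure S := hS ▸ Subring.mem_top x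
    induction hx using Subring.closure_induction with
    | mem a ha => exact hgen a ha
    | zero => exact zero_mem _
    | one => exact h1
    | add a b _ _ ha hb => exact add_mem ha hb
    | neg a _ ha => exact neg_mem ha
    | mul a b _ _ ha hb => exact mul_mem_span e he ha hb
  have hsurj : Function.Surjective fun c : ι → ZMod 2 => ∑ i, c i • e i := fun x =>
    (Submodule.mem_span_range_iff_exists_fun _).mp (htop x)
  refine (Nat.card_le_card_of_surjective _ hsurj).trans ?_
  rw [Nat.card_fun, Nat.card_zmod]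

section Char

variable (hM : IsMono δ ρ) (L : Lift r D V φ σ₀ red ρ z) (K : Subgroup Gal)
  (hK : ∀ σ, σ ∈ K ↔ σ δ = δ)

include hM L hK

theorem diag_mul_eq_one (σ : K) : ρ σ 0 0 * ρ σ 1 1 = 1 := by
  have h := L.det σ
  rw [Matrix.det_fin_two, ((Pat.diag_iff ((hK σ).mp σ.2)).mp (hM.pat σ)).1, zero_mul, sub_zero] at h
  exact h

/-- The diagonal character. -/
def diagChar : K →* Aˣ :=
  MonoidHom.mk'
    (fun σ => Units.mkOfMulEqOne (ρ σ 0 0) (ρ σ 1 1) (diag_mul_eq_one hM L K hK σ))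
    fun σ τ => Units.ext (by
      show ρ (σ * τ : K) 0 0 = ρ σ 0 0 * ρ τ 0 0
      rw [Subgroup.coe_mul, map_mul, Matrix.mul_apply, Fin.sum_univ_two,
        ((Pat.diag_iff ((hK σ).mp σ.2)).mp (hM.pat σ)).1, zero_mul, add_zero])

theorem diagChar_val (σ : K) : (diagChar hM L K hK σ : A) = ρ σ 0 0 := rfl

theorem diagChar_inv_val (σ : K) : (((diagChar hM L K hK σ)⁻¹ : Aˣ) : A) = ρ σ 1 1 := rfl

/-- Reflections invert the diagonal character. -/
theorem diagChar_conj {g : Gal} (hg : g ∉ K) (σ τ : K) (h : (τ : Gal) = g * σ * g⁻¹) :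
    diagChar hM L K hK τ = (diagChar hM L K hK σ)⁻¹ := by
  obtain ⟨g00, -⟩ := (Pat.off_iff fun e => hg ((hK g).mpr e)).mp (hM.pat g)
  obtain ⟨τ01, -⟩ := (Pat.diag_iff ((hK τ).mp τ.2)).mp (hM.pat τ)
  have hdet := L.det g
  rw [Matrix.det_fin_two, g00, zero_mul, zero_sub, CharTwo.neg_eq] at hdet
  have e : ρ τ * ρ g = ρ g * ρ σ := by
    rw [← map_mul, ← map_mul, h, inv_mul_cancel_right]
  have e01 := congrFun (congrFun e 0) 1
  rw [Matrix.mul_apply, Matrix.mul_apply, Fin.sum_univ_two, Fin.sum_univ_two, τ01, zero_mul,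
    add_zero, g00, zero_mul, zero_add] at e01
  refine Units.ext ?_
  rw [diagChar_val, diagChar_inv_val]
  linear_combination (ρ g 1 0) * e01 - (ρ τ 0 0 - ρ σ 1 1) * hdet

/-- **The count.** -/
theorem card_le (h : Dihedral r D δ) (hred : Function.Surjective red) {w : A}
    (hw : w ^ 2 + w + 1 = 0)
    (hgen : Subring.closure (Set.range (fun σ => (ρ σ).trace) ∪ z '' (V : Set ℕ) ∪ {w}) = ⊤)
    {c : ℕ}
    (hc : ∀ (Γ : Type) [CommGroup Γ] [Finite Γ], IsPGroup 2 Γ → ∀ ψ : K →* Γ,
      (∃ L : IntermediateField ℚ QBar, FiniteDimensional ℚ L ∧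
        ∀ σ : K, (∀ x ∈ L, (σ : Gal) x = x) → ψ σ = 1) →
      Function.Surjective ψ →
      (∀ g : Gal, g ∉ K → ∀ σ τ : K, (τ : Gal) = g * σ * g⁻¹ → ψ τ = (ψ σ)⁻¹) →
      (∀ q : ℕ, q.Prime → ∀ P : ValuationSubring QBar, P.LiesOverPrime q →
        ∀ σ : K, (σ : Gal) ∈ P.inertiaSubgroupIn ℚ → ψ σ = 1) →
      Nat.card Γ ≤ c) :
    Nat.card A ≤ 2 ^ (2 * (c * 2 ^ V.card)) := by
  classical
  letI : Algebra (ZMod 2) A := ZMod.algebra A 2
  obtain ⟨ω, hω, hform⟩ := h.form
  set a := diagChar hM L K hK with ha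
  set Ψ : K →* Aˣ := (powMonoidHom 3).comp a with hΨdef
  have hΨ : ∀ σ, Ψ σ = a σ ^ 3 := fun σ => rfl
  have hredΨ : ∀ u ∈ Ψ.range, red (u : A) = 1 := by
    rintro u ⟨σ, rfl⟩
    obtain ⟨j, hj⟩ := (hform σ).1 ((hK σ).mp σ.2)
    have e := congrFun (congrFun (L.res σ) 0) 0
    rw [Matrix.map_apply, hj] at e
    rw [hΨ, Units.val_pow_eq_pow_val, map_pow, ha, diagChar_val, e]
    show (ω ^ j) ^ 3 = 1
    rw [← pow_mul, mul_comm, pow_mul, Tangent.omega_cube hω, one_pow]
  have hP : IsPGroup 2 Ψ.range := isPGroup_of_red_eq_one hred _ hredΨ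
  have hΓ : Nat.card Ψ.range ≤ c := by
    refine hc Ψ.range hP Ψ.rangeRestrict ?_ Ψ.rangeRestrict_surjective ?_ ?_
    · obtain ⟨L', hL', hlev⟩ := L.level
      refine ⟨L', hL', fun σ hσ => Subtype.ext ?_⟩
      show a σ ^ 3 = 1
      have e : a σ = 1 := Units.ext (by rw [ha, diagChar_val, hlev σ hσ]; rfl)
      rw [e, one_pow]
    · intro g hg σ τ hτ
      refine Subtype.ext ?_
      show a τ ^ 3 = (a σ ^ 3)⁻¹
      rw [ha, diagChar_conj hM L K hK hg σ τ hτ, inv_pow]
    · intro q hq P hPl σ hσ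
      refine Subtype.ext (Units.ext ?_)
      show ((a σ ^ 3 : Aˣ) : A) = 1
      rw [Units.val_pow_eq_pow_val, ha, diagChar_val, hM.inertia q hq P hPl _ hσ ((hK _).mp σ.2)]
  let zp : (V → Fin 2) → A := fun x => ∏ v : V, z v ^ (x v).val
  let e : Fin 2 × Ψ.range × (V → Fin 2) → A := fun i =>
    w ^ i.1.val * ((i.2.1 : Aˣ) : A) * zp i.2.2
  set M := Submodule.span (ZMod 2) (Set.range e) with hMdef
  have hbase : ∀ (n : ℕ) (γ : Ψ.range) (x : V → Fin 2), w ^ n * ((γ : Aˣ) : A) * zp x ∈ M := by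
    intro n γ x
    have hm : ∀ i : Fin 2, w ^ i.val * ((γ : Aˣ) : A) * zp x ∈ M :=
      fun i => Submodule.subset_span ⟨(i, γ, x), rfl⟩
    have hw3 : w ^ 3 = 1 := by linear_combination (w - 1) * hw
    rw [pow_eq_pow_mod n hw3]
    rcases (show n % 3 = 0 ∨ n % 3 = 1 ∨ n % 3 = 2 by omega) with e0 | e0 | e0 <;> rw [e0]
    · exact hm 0
    · exact hm 1
    · rw [show w ^ 2 * ((γ : Aˣ) : A) * zp x =
          -(w ^ (1 : Fin 2).val * ((γ : Aˣ) : A) * zp x +
            w ^ (0 : Fin 2).val * ((γ : Aˣ) : A) * zp x) by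
        show _ = -(w ^ 1 * _ * _ + w ^ 0 * _ * _)
        linear_combination (((γ : Aˣ) : A) * zp x) * hw]
      exact neg_mem (add_mem (hm 1) (hm 0))
  have hz0 : zp (fun _ => 0) = 1 := Finset.prod_eq_one fun v _ => pow_zero _
  have hzmul : ∀ x y, zp x * zp y = zp fun v => x v + y v := fun x y => by
    show (∏ v : V, z v ^ (x v).val) * (∏ v : V, z v ^ (y v).val) = _
    rw [← Finset.prod_mul_distrib]
    refine Finset.prod_congr rfl fun v _ => ?_
    have hs := L.sign v v.2
    show _ = z v ^ (x v + y v).val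
    generalize x v = i
    generalize y v = j
    obtain rfl | rfl : i = 0 ∨ i = 1 := by omega
    all_goals obtain rfl | rfl : j = 0 ∨ j = 1 := by omega
    all_goals simp [← sq, hs]
  have hγ : ∀ γ : Ψ.range, ((γ : Aˣ) : A) ∈ M := fun γ => by
    simpa [hz0] using hbase 0 γ fun _ => 0
  have hwn : ∀ n, w ^ n ∈ M := fun n => by simpa [hz0] using hbase n 1 fun _ => 0
  have hmul : ∀ i j, e i * e j ∈ M := by
    rintro ⟨i, γ, x⟩ ⟨i', γ', x'⟩
    have := hbase (i.val + i'.val) (γ * γ') fun v => x v + x' v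
    rw [← hzmul, Subgroup.coe_mul, Units.val_mul, pow_add] at this
    show w ^ i.val * _ * zp x * (w ^ i'.val * _ * zp x') ∈ M
    convert this using 1
    ring
  have haM : ∀ σ : K, (a σ : A) ∈ M := by
    intro σ
    obtain ⟨m, hm⟩ := hP ⟨Ψ σ, σ, rfl⟩
    obtain ⟨s, hs⟩ : ∃ s, 3 * s % 2 ^ m = 1 % 2 ^ m := by
      obtain ⟨s, -, hs⟩ := Nat.exists_mul_mod_eq_of_coprime 1
        ((by decide : Nat.Coprime 3 2).pow_right m) (pow_ne_zero _ two_ne_zero)
      exact ⟨s, hs⟩
    have hpow : Ψ σ ^ (3 * s) = Ψ σ := by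
      have hm' : Ψ σ ^ 2 ^ m = 1 := congrArg Subtype.val hm
      rw [pow_eq_pow_mod (3 * s) hm', hs, ← pow_eq_pow_mod 1 hm', pow_one]
    set t : Aˣ := a σ * (Ψ σ ^ s)⁻¹ with ht
    have ht3 : (t : A) ^ 3 = 1 := by
      rw [← Units.val_pow_eq_pow_val, ht, mul_pow, inv_pow, ← hΨ, ← pow_mul, mul_comm s, hpow,
        mul_inv_cancel, Units.val_one]
    have htM : (t : A) ∈ M := by
      rcases cube_root_cases hw ht3 with e0 | e0 | e0 <;> rw [e0]
      · simpa using hwn 0
      · simpa using hwn 1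
      · exact hwn 2
    have e1 : (a σ : A) = (t : A) * (((⟨Ψ σ, σ, rfl⟩ : Ψ.range) ^ s : Ψ.range) : Aˣ) := by
      rw [← Units.val_mul, Subgroup.coe_pow, ht, inv_mul_cancel_right]
    rw [e1]
    exact mul_mem_span e hmul htM (hγ _)
  have hcard : Nat.card (Fin 2 × Ψ.range × (V → Fin 2)) ≤ 2 * (c * 2 ^ V.card) := by
    rw [Nat.card_prod, Nat.card_prod, Nat.card_fun, Nat.card_fin, Nat.card_eq_fintype_card (α := V),
      Fintype.card_coe]
    exact Nat.mul_le_mul_left _ (Nat.mul_le_mul_right _ hΓ)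
  refine (card_le_of_span e hgen (by simpa using hwn 0) hmul ?_).trans
    (Nat.pow_le_pow_right two_pos hcard)
  rintro x ((⟨σ, rfl⟩ | ⟨v, hv, rfl⟩) | rfl)
  · show (ρ σ).trace ∈ M
    rw [Matrix.trace_fin_two]
    by_cases hσ : σ ∈ K
    · refine add_mem (haM ⟨σ, hσ⟩) ?_
      have h' := haM (⟨σ, hσ⟩ : K)⁻¹
      rwa [map_inv, ha, diagChar_inv_val] at h'
    · obtain ⟨e0, e1⟩ := (Pat.off_iff fun e' => hσ ((hK σ).mpr e')).mp (hM.pat σ)
      rw [e0, e1, add_zero]
      exact zero_mem _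
  · have := hbase 0 1 fun u => if (u : ℕ) = v then 1 else 0
    rw [pow_zero, one_mul, Subgroup.coe_one, Units.val_one, one_mul] at this
    convert this using 1
    show z v = ∏ u : V, z u ^ ((if (u : ℕ) = v then (1 : Fin 2) else 0).val)
    rw [Finset.prod_eq_single (⟨v, hv⟩ : V) (fun u _ hu => ?_) (by simp)]
    · simp
    · rw [if_neg fun e' => hu (Subtype.ext e')]
      simp
  · simpa using hwn 1

end Char

end Fermat.Agent.Two.ModTwo
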