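import Fermat.Agent.Two.ModTwo.Setup

/-!
# Elementary facts about the residual data and the socle
-/

set_option autoImplicit false
set_option linter.style.haveILetI false
set_option linter.unusedSectionVars false

noncomputable section

namespace Fermat.Agent.Two.ModTwo

open Fermat.Agent.Deform Fermat.Agent.Arith
open Fermat.Agent.CFT.Flat (inG)
open Fermat.Agent.Two.Tangent (Dihedral rmul_inv rinv_mul)
open scoped Pointwise

variable {k : Type} [Field k] {r : Gal →* M2 k} {D : Finset ℕ} {δ : QBar}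

/-- Composition of the two classes. -/
theorem fix_mul_iff (h : Dihedral r D δ) (σ τ : Gal) :
    (σ * τ) δ = δ ↔ (σ δ = δ ↔ τ δ = δ) := by
  have hne : ¬ -δ = δ := fun e => h.delta_ne_zero (by linear_combination (-(1 : QBar) / 2) * e)
  rw [AlgEquiv.mul_apply]
  rcases h.delta_or_neg τ with e | e <;> rcases h.delta_or_neg σ with e' | e' <;>
    simp [e, e', hne]

theorem pat_r (h : Dihedral r D δ) (σ : Gal) : Pat (σ δ = δ) (r σ) := by
  obtain ⟨ω, -, hf⟩ := h.form
  by_cases e : σ δ = δ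
  · obtain ⟨a, ha⟩ := (hf σ).1 e
    exact (Pat.diag_iff e).mpr ⟨by rw [ha]; simp, by rw [ha]; simp⟩
  · obtain ⟨a, ha⟩ := (hf σ).2 e
    exact (Pat.off_iff e).mpr ⟨by rw [ha]; simp, by rw [ha]; simp⟩

variable {A : Type} [CommRing A] [CharP A 2] {red : A →+* k}

/-- A cube root of one congruent to one. -/
theorem cube_sub_one_dvd [CharP k 2] (hu : ∀ x : A, red x ≠ 0 → IsUnit x) {ε a : A}
    (ha : red a = 1) (h : ε ∣ a ^ 3 - 1) : ε ∣ a - 1 := by
  have hunit : IsUnit (a ^ 2 + a + 1) := hu _ (by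
    rw [map_add, map_add, map_pow, ha, map_one, one_pow, CharTwo.add_self_eq_zero, zero_add]
    exact one_ne_zero)
  rw [show a ^ 3 - 1 = (a - 1) * (a ^ 2 + a + 1) by ring] at h
  exact hunit.dvd_mul_right.mp h

/-- An element killed by the socle generator reduces to zero. -/
theorem red_eq_zero_of_mul (hu : ∀ x : A, red x ≠ 0 → IsUnit x) {ε x : A} (hε : ε ≠ 0)
    (h : ε * x = 0) : red x = 0 := by
  by_contra hne
  exact hε ((hu x hne).mul_left_eq_zero.mp h)

/-- A property of inertia at `padicPlace q` holds at every place above `q`. -/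
theorem eq_one_of_padic {B : Type} [CommRing B] {ρ : Gal →* M2 B} {q : ℕ} [Fact q.Prime]
    (h : ∀ g ∈ inG q, r g = 1 → ρ g = 1) {P : ValuationSubring QBar} (hP : P.LiesOverPrime q)
    {σ : Gal} (hσ : σ ∈ P.inertiaSubgroupIn ℚ) (hr : r σ = 1) : ρ σ = 1 := by
  obtain ⟨g, hgP⟩ := exists_smul_eq hP (CFT.Local.padicPlace_liesOverPrime q) Fact.out
  have hmem : g * σ * g⁻¹ ∈ inG q := by
    show g * σ * g⁻¹ ∈ (padicPlace q).inertiaSubgroupIn ℚ
    rw [← hgP]
    exact mem_inertia_smul_iff.mpr hσ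
  have h1 := h _ hmem (by rw [map_mul, map_mul, hr, mul_one, rmul_inv])
  calc ρ σ = ρ g⁻¹ * ρ (g * σ * g⁻¹) * ρ g := by
        rw [← map_mul, ← map_mul]; congr 1; group
    _ = 1 := by rw [h1, mul_one, ← map_mul, inv_mul_cancel, map_one]

end Fermat.Agent.Two.ModTwo
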