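import Mathlib.Data.Matrix.Mul
import Mathlib.LinearAlgebra.Matrix.Notation
import Mathlib.RingTheory.LocalRing.Basic

/-!
# Monomial patterns of two by two matrices

`Pat p M` says that `M` is supported on the diagonal when `p` holds and off it otherwise. Products
of patterns follow the group law of the two classes.
-/

set_option autoImplicit false

namespace Fermat.Agent.Two.ModTwo

open Matrix

variable {A B : Type} [CommRing A] [CommRing B]

/-- Supported on the diagonal if `p`, off the diagonal otherwise. -/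
def Pat (p : Prop) (M : Matrix (Fin 2) (Fin 2) A) : Prop :=
  ∀ i j : Fin 2, ¬ (i = j ↔ p) → M i j = 0

namespace Pat

variable {p q : Prop} {M N : Matrix (Fin 2) (Fin 2) A}

theorem diag_iff (hp : p) : Pat p M ↔ M 0 1 = 0 ∧ M 1 0 = 0 := by
  refine ⟨fun h => ⟨h 0 1 (by simp [hp]), h 1 0 (by simp [hp])⟩, fun h i j hij => ?_⟩
  fin_cases i <;> fin_cases j <;> simp_all

theorem off_iff (hp : ¬ p) : Pat p M ↔ M 0 0 = 0 ∧ M 1 1 = 0 := by
  refine ⟨fun h => ⟨h 0 0 (by simp [hp]), h 1 1 (by simp [hp])⟩, fun h i j hij => ?_⟩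
  fin_cases i <;> fin_cases j <;> simp_all

theorem congr (h : Pat p M) (hpq : p ↔ q) : Pat q M := fun i j hij =>
  h i j (by rwa [hpq])

theorem add (h : Pat p M) (h' : Pat p N) : Pat p (M + N) := fun i j hij => by
  rw [Matrix.add_apply, h i j hij, h' i j hij, add_zero]

theorem sub (h : Pat p M) (h' : Pat p N) : Pat p (M - N) := fun i j hij => by
  rw [Matrix.sub_apply, h i j hij, h' i j hij, sub_zero]

theorem smul (h : Pat p M) (c : A) : Pat p (c • M) := fun i j hij => by
  rw [Matrix.smul_apply, h i j hij, smul_zero]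

theorem map (h : Pat p M) (f : A →+* B) : Pat p (M.map f) := fun i j hij => by
  rw [Matrix.map_apply, h i j hij, map_zero]

theorem mul (h : Pat p M) (h' : Pat q N) : Pat (p ↔ q) (M * N) := fun i j hij => by
  rw [Matrix.mul_apply]
  refine Finset.sum_eq_zero fun l _ => ?_
  by_cases h1 : i = l ↔ p
  · rw [h' l j fun h2 => hij ?_, mul_zero]
    rw [← h1, ← h2]
    exact (by decide : ∀ i j l : Fin 2, i = j ↔ (i = l ↔ l = j)) i j l
  · rw [h i l h1, zero_mul]

/-- A matrix with both patterns is zero. -/
theorem eq_zero (h : Pat p M) (h' : Pat (¬ p) M) : M = 0 := by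
  ext i j
  by_cases e : i = j ↔ p
  · exact h' i j fun e' => iff_not_self (e.symm.trans e')
  · exact h i j e

/-- Two decompositions by pattern agree. -/
theorem eq_of_add_eq {M' N' : Matrix (Fin 2) (Fin 2) A} (hM : Pat p M) (hM' : Pat p M')
    (hN : Pat (¬ p) N) (hN' : Pat (¬ p) N') (e : M + N = M' + N') : N = N' := by
  ext i j
  by_cases h : i = j ↔ p
  · rw [hN i j fun h1 => iff_not_self (h.symm.trans h1),
      hN' i j fun h1 => iff_not_self (h.symm.trans h1)]
  · have e1 := congrFun (congrFun e i) j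
    rwa [Matrix.add_apply, Matrix.add_apply, hM i j h, hM' i j h, zero_add, zero_add] at e1

end Pat

end Fermat.Agent.Two.ModTwo
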