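import Fermat.Agent.Two.ModTwo.Elem
import Fermat.Agent.Two.Flat.Unramified

/-!
# The socle step

If a lift is monomial with diagonal character unramified up to cube roots of unity modulo an
element `ε` of the socle, it is so itself: the wrong part over `ε` is a class of the Steinberg
part satisfying the Selmer conditions, hence zero; the diagonal character is then unramified at
the bad primes by the order of inertia, at `V` because the wrong part vanishes, at `2` by flatness.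
-/

set_option autoImplicit false
set_option linter.style.haveILetI false
set_option linter.unusedSectionVars false

noncomputable section

namespace Fermat.Agent.Two.ModTwo

open Fermat.Agent.Deform Fermat.Agent.Arith Fermat.Agent.FiniteFlat
open Fermat.Agent.CFT.Flat (inG tame MVec mvec_ext mvec_smul_apply mem_tame)
open Fermat.Agent.CFT.Tangent (IsAdCocycle IsFiniteLevel cobdLin cobdLin_apply)
open Fermat.Agent.Two.Tangent (Dihedral IsOffClass Deep dM oM rmul_inv rinv_mul)
open scoped Pointwise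

variable {k : Type} [Field k] [CharP k 2] {r : Gal →* M2 k} {D V : Finset ℕ} {δ : QBar}
  {φ : ℕ → Gal} {σ₀ : Gal} {A : Type} [CommRing A] [IsLocalRing A] [Finite A] [CharP A 2]
  {red : A →+* k} {ρ : Gal →* M2 A} {z : ℕ → A}

/-- Monomial, with diagonal character trivial on inertia up to cube roots of unity. -/
structure IsMono (δ : QBar) (ρ : Gal →* M2 A) : Prop where
  pat : ∀ σ, Pat (σ δ = δ) (ρ σ)
  inertia : ∀ q : ℕ, q.Prime → ∀ P : ValuationSubring QBar, P.LiesOverPrime q →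
    ∀ τ ∈ P.inertiaSubgroupIn ℚ, τ δ = δ → ρ τ 0 0 ^ 3 = 1

section Step

variable (S : Setup r D δ V φ σ₀) (L : Lift r D V φ σ₀ red ρ z)
  (hred : Function.Surjective red) {ε : A} (hε : ε ≠ 0) (hεm : red ε = 0)
  (hsoc : ∀ x, red x = 0 → ε * x = 0)
  {B : Type} [CommRing B] [IsLocalRing B] [Finite B] [CharP B 2] {f : A →+* B}
  (hf : ∀ x, f x = 0 → ε ∣ x) (hB : IsMono δ (mapM f ρ))

include S L hred hε hεm hsoc hf hB

/-- Inertia acting trivially residually acts as one modulo `ε`. -/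
theorem exists_eq_one_add {q : ℕ} (hq : q.Prime) {P : ValuationSubring QBar}
    (hP : P.LiesOverPrime q) {τ : Gal} (hτ : τ ∈ P.inertiaSubgroupIn ℚ) (hr : r τ = 1) :
    ∃ n : M2 A, ρ τ = 1 + ε • n := by
  have hu := fun x => Flat.isUnit_of_red_ne_zero red hred (x := x)
  have hfix := S.dih.fix_of_eq_one hr
  obtain ⟨h01, h10⟩ := (Pat.diag_iff hfix).mp (hB.pat τ)
  have h01 : ε ∣ ρ τ 0 1 := hf _ h01
  have h10 : ε ∣ ρ τ 1 0 := hf _ h10
  have ha : red (ρ τ 0 0) = 1 := by
    have := congrFun (congrFun (L.res τ) 0) 0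
    rw [hr] at this
    simpa using this
  have h00 : ε ∣ ρ τ 0 0 - 1 := cube_sub_one_dvd hu ha (hf _ (by
    have h := hB.inertia q hq P hP τ hτ hfix
    rw [mapM_apply] at h
    rw [map_sub, map_pow, map_one, h, sub_self]))
  have hbc : ρ τ 0 1 * ρ τ 1 0 = 0 := by
    obtain ⟨x, hx⟩ := h01
    obtain ⟨y, hy⟩ := h10
    rw [hx, hy, mul_mul_mul_comm, hsoc ε hεm, zero_mul]
  have hdet := L.det τ
  rw [Matrix.det_fin_two, hbc, sub_zero] at hdet
  have h11 : ε ∣ ρ τ 1 1 - 1 := by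
    have e : ρ τ 1 1 - 1 = -(ρ τ 1 1) * (ρ τ 0 0 - 1) := by linear_combination hdet
    rw [e]
    exact h00.mul_left _
  have hdiv : ∀ i j, ∃ y, ρ τ i j - (1 : M2 A) i j = ε * y := by
    intro i j
    fin_cases i <;> fin_cases j
    · simpa [dvd_iff_exists_eq_mul_right] using h00
    · simpa [dvd_iff_exists_eq_mul_right] using h01
    · simpa [dvd_iff_exists_eq_mul_right] using h10
    · simpa [dvd_iff_exists_eq_mul_right] using h11
  choose n hn using hdiv
  refine ⟨Matrix.of n, ?_⟩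
  ext i j
  rw [Matrix.add_apply, Matrix.smul_apply, Matrix.of_apply, smul_eq_mul, ← hn, add_sub_cancel]

/-- **The socle step.** -/
theorem isMono_step : IsMono δ ρ := by
  classical
  have hu := fun x => Flat.isUnit_of_red_ne_zero red hred (x := x)
  have hεε : ε * ε = 0 := hsoc ε hεm
  have hsub : ∀ M N : M2 A, ε • M = ε • N → M.map red = N.map red := fun M N h => by
    ext i j
    have e := congrFun (congrFun h i) j
    simp only [Matrix.smul_apply, smul_eq_mul] at e
    have := red_eq_zero_of_mul hu hε (x := M i j - N i j) (by rw [mul_sub, e, sub_self])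
    rwa [map_sub, sub_eq_zero] at this
  have hzero : ∀ M : M2 A, M.map red = 0 → ε • M = 0 := fun M h => by
    ext i j
    exact hsoc _ (congrFun (congrFun h i) j)
  -- the wrong part
  have hY : ∀ σ, ∃ Y : M2 A, Pat (¬ σ δ = δ) Y ∧ Pat (σ δ = δ) (ρ σ - ε • Y) := by
    intro σ
    have h : ∀ i j, ∃ y, ¬ (i = j ↔ σ δ = δ) → ρ σ i j = ε * y := fun i j => by
      by_cases e : i = j ↔ σ δ = δ
      · exact ⟨0, fun h => absurd e h⟩
      · obtain ⟨y, hy⟩ := hf _ (hB.pat σ i j e)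
        exact ⟨y, fun _ => hy⟩
    choose y hy using h
    refine ⟨Matrix.of fun i j => if i = j ↔ σ δ = δ then 0 else y i j, fun i j hij => ?_,
      fun i j hij => ?_⟩
    · rw [Matrix.of_apply, if_pos]
      by_contra e
      exact hij (by tauto)
    · rw [Matrix.sub_apply, Matrix.smul_apply, Matrix.of_apply, if_neg hij, smul_eq_mul,
        ← hy i j hij, sub_self]
  choose Y hYw hYr using hY
  set Yb : Gal → M2 k := fun σ => (Y σ).map red with hYb
  have hredr : ∀ σ, (ρ σ - ε • Y σ).map red = r σ := fun σ => by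
    ext i j
    have e := congrFun (congrFun (L.res σ) i) j
    rw [Matrix.map_apply] at e
    rw [Matrix.map_apply, Matrix.sub_apply, Matrix.smul_apply, smul_eq_mul, map_sub, map_mul, hεm,
      zero_mul, sub_zero, e]
  have hmul : ∀ σ τ, Yb (σ * τ) = r σ * Yb τ + Yb σ * r τ := by
    intro σ τ
    set a := ρ σ - ε • Y σ with ha
    set b := ρ τ - ε • Y τ with hb
    have e1 : ρ (σ * τ) = a * b + ε • (a * Y τ + Y σ * b) := by
      rw [map_mul, ← sub_add_cancel (ρ σ) (ε • Y σ), ← sub_add_cancel (ρ τ) (ε • Y τ), ← ha, ← hb,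
        add_mul, mul_add, mul_add, mul_smul_comm, smul_mul_assoc, smul_mul_assoc, mul_smul_comm,
        smul_smul, hεε, zero_smul, add_zero, smul_add, add_assoc]
    have hp := fix_mul_iff S.dih σ τ
    have e2 : ε • Y (σ * τ) = ε • (a * Y τ + Y σ * b) :=
      Pat.eq_of_add_eq (p := (σ * τ) δ = δ) (hYr (σ * τ))
        (((hYr σ).mul (hYr τ)).congr hp.symm) ((hYw (σ * τ)).smul ε)
        (((((hYr σ).mul (hYw τ)).congr (by rw [hp]; tauto)).add
          (((hYw σ).mul (hYr τ)).congr (by rw [hp]; tauto))).smul ε)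
        (by rw [sub_add_cancel]; exact e1)
    have e3 := hsub _ _ e2
    show (Y (σ * τ)).map red = _
    rw [e3, Matrix.map_add _ (map_add red), Matrix.map_mul, Matrix.map_mul, ha, hb, hredr, hredr]
  set Z : Gal → M2 k := fun σ => Yb σ * r σ⁻¹ with hZ
  have hcoc : IsAdCocycle r Z := fun σ τ => by
    simp only [hZ]
    rw [hmul, mul_inv_rev, map_mul, add_mul, mul_assoc (Yb σ) (r τ), ← mul_assoc (r τ) (r τ⁻¹),
      rmul_inv, one_mul, mul_assoc (r σ) (Yb τ)]
    congr 1
    simp only [mul_assoc]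
  have hoff : ∀ σ, dM (Z σ) = 0 := fun σ => by
    have hi := S.dih.inv_fix_iff σ
    have h : Pat False (Z σ) := (((hYw σ).map red).mul (pat_r S.dih σ⁻¹)).congr (by rw [hi]; tauto)
    obtain ⟨h0, h1⟩ := (Pat.off_iff not_false).mp h
    rw [Tangent.dM_apply, h0, h1]
    ext i j
    fin_cases i <;> fin_cases j <;> simp
  -- inertia trivial modulo `ε`
  have hZ1 : ∀ τ (n : M2 A), r τ = 1 → ρ τ = 1 + ε • n → Z τ = oM (n.map red) := by
    intro τ n hr hn
    have hfix := S.dih.fix_of_eq_one hr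
    have hr' : r τ⁻¹ = 1 := by simpa [hr] using rinv_mul r τ
    obtain ⟨h01, h10⟩ := (Pat.diag_iff hfix).mp (hYr τ)
    obtain ⟨w0, w1⟩ := (Pat.off_iff (fun h : ¬ τ δ = δ => h hfix)).mp (hYw τ)
    have e : ∀ i j : Fin 2, i ≠ j → (ρ τ - ε • Y τ) i j = 0 → red (Y τ i j) = red (n i j) := by
      intro i j hij h
      rw [hn, Matrix.sub_apply, Matrix.add_apply, Matrix.one_apply_ne hij, zero_add,
        Matrix.smul_apply, Matrix.smul_apply, smul_eq_mul, smul_eq_mul, ← mul_sub] at h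
      have := red_eq_zero_of_mul hu hε h
      rw [map_sub, sub_eq_zero] at this
      exact this.symm
    show Yb τ * r τ⁻¹ = _
    rw [hr', mul_one, Tangent.oM_apply]
    ext i j
    fin_cases i <;> fin_cases j
    · simp [hYb, w0]
    · simpa [hYb] using e 0 1 (by decide) h01
    · simpa [hYb] using e 1 0 (by decide) h10
    · simp [hYb, w1]
  have hZof : ∀ τ, ρ τ = 1 → Z τ = 0 := fun τ h => by
    have hr : r τ = 1 := by rw [← L.res, h, Matrix.map_one red (map_zero red) (map_one red)]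
    rw [hZ1 τ 0 hr (by rw [h, smul_zero, add_zero]), Matrix.map_zero _ (map_zero red), map_zero]
  have hlevel : IsFiniteLevel Z := by
    obtain ⟨L', hL', h⟩ := L.level
    exact ⟨L', hL', fun σ hσ => hZof σ (h σ hσ)⟩
  -- flatness
  have hex : ∀ σ, ∃ n : M2 A, σ ∈ tame 2 → ρ σ = 1 + ε • n := fun σ => by
    by_cases hσ : σ ∈ tame 2
    · obtain ⟨n, hn⟩ := exists_eq_one_add S L hred hε hεm hsoc hf hB Nat.prime_two
        (CFT.Local.padicPlace_liesOverPrime 2) ((mem_tame 2).mp hσ).1 (S.tame_two σ hσ)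
      exact ⟨n, fun _ => hn⟩
    · exact ⟨0, fun h => absurd h hσ⟩
  choose β hβ using hex
  have hdeepβ : Deep fun σ => (β σ).map red := by
    obtain ⟨P₀, hP₀⟩ := S.binary
    obtain ⟨M, hM⟩ : ∃ M : M2 A, M.map red = (P₀ : M2 k) := by
      choose g hg using fun i j => hred ((P₀ : M2 k) i j)
      exact ⟨Matrix.of g, Matrix.ext fun i j => hg i j⟩
    have hdetM : IsUnit M.det := hu _ (by
      rw [RingHom.map_det, RingHom.mapMatrix_apply, hM]
      exact (Matrix.isUnit_iff_isUnit_det _).mp P₀.isUnit |>.ne_zero)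
    obtain ⟨P, hP⟩ := (Matrix.isUnit_iff_isUnit_det M).mpr hdetM
    have hPinv : (↑P⁻¹ : M2 A).map red = (↑P₀⁻¹ : M2 k) := by
      have h1 : (↑P⁻¹ : M2 A).map red * (P₀ : M2 k) = 1 := by
        rw [← hM, ← hP, ← Matrix.map_mul, Units.inv_mul, Matrix.map_one red (map_zero red) (map_one red)]
      exact Units.eq_inv_of_mul_eq_one_right h1
    let ρ₂ : Gal →* M2 A :=
      { toFun := fun σ => (↑P⁻¹ : M2 A) * ρ σ * (P : M2 A)
        map_one' := by rw [map_one, mul_one, Units.inv_mul]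
        map_mul' := fun σ τ => by
          rw [map_mul]
          calc (↑P⁻¹ : M2 A) * (ρ σ * ρ τ) * (P : M2 A)
              = ↑P⁻¹ * ρ σ * ((P : M2 A) * ↑P⁻¹) * ρ τ * ↑P := by
                rw [Units.mul_inv, mul_one]; simp only [mul_assoc]
            _ = _ := by simp only [mul_assoc] }
    have hred₂ : ∀ σ, (ρ₂ σ).map red = (↑P₀⁻¹ : M2 k) * r σ * (P₀ : M2 k) := fun σ => by
      show ((↑P⁻¹ : M2 A) * ρ σ * (P : M2 A)).map red = _
      rw [Matrix.map_mul, Matrix.map_mul, hPinv, L.res, hP, hM]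
    obtain ⟨O⟩ := L.order
    let π : MVec ρ →+ MVec ρ₂ :=
      AddMonoidHom.mk' (fun x => MVec.mk ρ₂ ((↑P⁻¹ : M2 A).mulVec (x : Fin 2 → A))) fun x y =>
        mvec_ext _ fun l => congrFun (Matrix.mulVec_add _ (x : Fin 2 → A) (y : Fin 2 → A)) l
    let O₂ := O.quotient π (fun y => ⟨MVec.mk ρ ((P : M2 A).mulVec (y : Fin 2 → A)),
        show (↑P⁻¹ : M2 A).mulVec ((P : M2 A).mulVec (y : Fin 2 → A)) = (y : Fin 2 → A) by
          rw [Matrix.mulVec_mulVec, Units.inv_mul, Matrix.one_mulVec]⟩)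
      fun σ x => show (↑P⁻¹ : M2 A).mulVec ((ρ σ).mulVec (x : Fin 2 → A)) =
          ((↑P⁻¹ : M2 A) * ρ σ * (P : M2 A)).mulVec ((↑P⁻¹ : M2 A).mulVec (x : Fin 2 → A)) by
        rw [Matrix.mulVec_mulVec, Matrix.mulVec_mulVec]
        congr 1
        simp only [mul_assoc, Units.mul_inv, mul_one]
    obtain ⟨τ, hτ, hτd⟩ := S.elliptic
    have hne : ((ρ₂ τ).map red - 1).det ≠ 0 := by
      rw [hred₂, ← Units.inv_mul P₀,
        show (↑P₀⁻¹ : M2 k) * r τ * (P₀ : M2 k) - ↑P₀⁻¹ * (P₀ : M2 k) =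
          ↑P₀⁻¹ * (r τ - 1) * (P₀ : M2 k) by rw [mul_sub, sub_mul, mul_one],
        Matrix.det_units_conj']
      exact hτd
    intro l
    let conjHom : M2 k →+ M2 k :=
      (AddMonoidHom.mulLeft (P₀ : M2 k)).comp (AddMonoidHom.mulRight (↑P₀⁻¹ : M2 k))
    refine (Flat.hasDeep_socle red hred hε hεm hsoc O₂
      (fun σ i j => by
        have e := congrFun (congrFun (hred₂ σ) i) j
        rw [Matrix.map_apply] at e
        rw [e]
        exact hP₀ σ i j)
      hτ hne (fun σ => (↑P⁻¹ : M2 A) * β σ * (P : M2 A)) (fun σ hσ => ?_)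
      (l.comp conjHom)).congr fun σ _ => ?_
    · show (↑P⁻¹ : M2 A) * ρ σ * (P : M2 A) = _
      rw [hβ σ hσ, mul_add, add_mul, mul_one, Units.inv_mul, mul_smul_comm, smul_mul_assoc]
    · show l ((P₀ : M2 k) * (((↑P⁻¹ : M2 A) * β σ * (P : M2 A)).map red * (↑P₀⁻¹ : M2 k))) = _
      rw [Matrix.map_mul, Matrix.map_mul, hPinv, hP, hM, Units.mul_inv_cancel_right, ← mul_assoc,
        Units.mul_inv, one_mul]
  -- the class
  have hclass : IsOffClass r V Z :=
    { cocycle := hcoc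
      level := hlevel
      off := hoff
      unram := fun q hq hq2 hqV P hP τ hτ hr => hZof τ (by
        by_cases hqD : q ∈ D
        · exact L.eq_one_bad S hqD hP hτ hr
        · exact L.unram q hq hq2 hqD hqV P hP τ hτ)
      deep := fun l => ((hdeepβ.map (oM : M2 k →ₗ[k] M2 k).toAddMonoidHom) l).congr fun σ hσ => by
        rw [hZ1 σ (β σ) (S.tame_two σ hσ) (hβ σ hσ)]
        rfl }
  have hrV : ∀ v ∈ V, ∀ [Fact v.Prime], ∀ τ ∈ inG v, r τ = 1 := fun v hv _ τ hτ => by
    obtain ⟨hp, h4, hvD⟩ := S.detecting.prime v hv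
    exact S.dih.unram v hp (by rintro rfl; norm_num at h4) hvD _
      (CFT.Local.padicPlace_liesOverPrime v) τ hτ
  have hV : ∀ v ∈ V, ∀ [Fact v.Prime], ∀ τ ∈ inG v, ∃ (n : M2 A) (s : k),
      ρ τ = 1 + ε • n ∧ n.map red = s • (r (φ v) + 1) := by
    intro v hv _ τ hτ
    obtain ⟨n, hn⟩ := exists_eq_one_add S L hred hε hεm hsoc hf hB Fact.out
      (CFT.Local.padicPlace_liesOverPrime v) hτ (hrV v hv τ hτ)
    obtain ⟨α, γ, hαγ, hF⟩ := S.dih.antidiag_form (S.detecting.frob v hv).2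
    obtain ⟨h1, h2⟩ := L.special v hv τ hτ
    rw [hn, add_sub_cancel_left, mul_smul_comm] at h1
    rw [hn, add_sub_cancel_left, smul_mul_assoc] at h2
    have hz : red (z v) = 1 := by
      have e := congrArg red (L.sign v hv)
      rw [map_pow, map_one] at e
      have : (red (z v) + 1) ^ 2 = 0 := by
        rw [CharTwo.add_sq, e, one_pow, CharTwo.add_self_eq_zero]
      exact (CharTwo.add_eq_zero).mp (pow_eq_zero_iff two_ne_zero |>.mp this)
    have hFm : (ρ (φ v) - z v • (1 : M2 A)).map red = r (φ v) + 1 := by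
      ext i j
      have e := congrFun (congrFun (L.res (φ v)) i) j
      rw [Matrix.map_apply] at e
      by_cases hij : i = j
      · subst hij; simp [e, hz, CharTwo.sub_eq_add]
      · simp [e, hij]
    have e1 := hsub _ _ (h1.trans (smul_zero ε).symm)
    have e2 := hsub _ _ (h2.trans (smul_zero ε).symm)
    rw [Matrix.map_mul, hFm, Matrix.map_zero _ (map_zero red), hF] at e1 e2
    refine ⟨n, red (n 0 0), hn, ?_⟩
    have a00 := congrFun (congrFun e1 0) 0
    have a11 := congrFun (congrFun e2 0) 1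
    have b00 := congrFun (congrFun e2 0) 0
    have b11 := congrFun (congrFun e1 0) 1
    simp [Matrix.mul_apply, Fin.sum_univ_two] at a00 a11 b00 b11
    rw [hF]
    ext i j
    fin_cases i <;> fin_cases j <;> simp
    · linear_combination a11 - red (n 0 0) * α * (CharTwo.two_eq_zero : (2 : k) = 0)
    · linear_combination γ * a00 - red (n 1 0) * hαγ -
        γ * red (n 0 0) * (CharTwo.two_eq_zero : (2 : k) = 0)
    · linear_combination γ * b11 - red (n 1 1) * hαγ - b00
  have hline : ∀ v ∈ V, ∀ [Fact v.Prime], ∀ τ ∈ inG v, ∃ t : k, Z τ = t • r (φ v) := by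
    intro v hv _ τ hτ
    obtain ⟨n, s, hn, hns⟩ := hV v hv τ hτ
    refine ⟨s, ?_⟩
    rw [hZ1 τ n (hrV v hv τ hτ) hn, hns, Tangent.oM_apply]
    obtain ⟨α, γ, -, hF⟩ := S.dih.antidiag_form (S.detecting.frob v hv).2
    rw [hF]
    ext i j
    fin_cases i <;> fin_cases j <;> simp
  have hev : ∀ v ∈ V, Tangent.evTr r Z (φ v) = 0 := by
    intro v hv
    have hm : ¬ φ v δ = δ := by
      haveI : Fact v.Prime := ⟨(S.detecting.prime v hv).1⟩
      exact (S.detecting.frob v hv).2
    obtain ⟨h00, h11⟩ := (Pat.off_iff hm).mp (hYr (φ v))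
    have ht := L.trace v hv
    rw [Matrix.sub_apply, Matrix.smul_apply, sub_eq_zero, smul_eq_mul] at h00 h11
    rw [Matrix.trace_fin_two, h00, h11, ← mul_add] at ht
    have := red_eq_zero_of_mul hu hε ht
    show ((Yb (φ v) * r (φ v)⁻¹) * r (φ v)).trace = 0
    rw [mul_assoc, rinv_mul, mul_one, Matrix.trace_fin_two]
    rwa [map_add] at this
  obtain ⟨X, hX⟩ := Tangent.exists_eq_cobdLin S.dih S.recip S.detecting hclass hline hev
  -- the class is zero
  have hσ₀Z : Z σ₀ = 0 := by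
    have h : ε • Y σ₀ = 0 := by
      refine Pat.eq_zero (p := σ₀ δ = δ) ?_ ((hYw σ₀).smul ε)
      have h1 : Pat (σ₀ δ = δ) (ρ σ₀) := (Pat.diag_iff S.rot_fix).mpr L.diag
      simpa using h1.sub (hYr σ₀)
    show (Y σ₀).map red * r σ₀⁻¹ = 0
    rw [show (Y σ₀).map red = (0 : M2 A).map red from hsub _ _ (h.trans (smul_zero ε).symm),
      Matrix.map_zero _ (map_zero red), zero_mul]
  have hoX : oM X = 0 := by
    rw [hX, cobdLin_apply, sub_eq_zero] at hσ₀Z
    have e : r σ₀ * X = X * r σ₀ := by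
      calc r σ₀ * X = r σ₀ * X * (r σ₀⁻¹ * r σ₀) := by rw [rinv_mul, mul_one]
        _ = X * r σ₀ := by rw [← mul_assoc, hσ₀Z]
    obtain ⟨h1, h2⟩ := (S.dih.diag_iff σ₀).mpr S.rot_fix
    have hne : r σ₀ 0 0 - r σ₀ 1 1 ≠ 0 := sub_ne_zero.mpr S.rot
    have e01 := congrFun (congrFun e 0) 1
    have e10 := congrFun (congrFun e 1) 0
    simp [Matrix.mul_apply, Fin.sum_univ_two, h1, h2] at e01 e10
    have x01 : X 0 1 = 0 := (mul_eq_zero.mp (show (r σ₀ 0 0 - r σ₀ 1 1) * X 0 1 = 0 by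
      linear_combination e01)).resolve_left hne
    have x10 : X 1 0 = 0 := (mul_eq_zero.mp (show (r σ₀ 0 0 - r σ₀ 1 1) * X 1 0 = 0 by
      linear_combination -e10)).resolve_left hne
    rw [Tangent.oM_apply, x01, x10]
    ext i j
    fin_cases i <;> fin_cases j <;> simp
  have hZ0 : ∀ σ, Z σ = 0 := fun σ => by
    have e : oM (Z σ) = Z σ := by
      have := Tangent.dM_add_oM (Z σ)
      rwa [hoff, zero_add] at this
    rw [← e, hX, cobdLin_apply, map_sub, S.dih.oM_conj, hoX, mul_zero, zero_mul, sub_self]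
  have hYb0 : ∀ σ, Yb σ = 0 := fun σ => by
    rw [← mul_one (Yb σ), ← rinv_mul r σ, ← mul_assoc]
    show Z σ * r σ = 0
    rw [hZ0, zero_mul]
  have hpat : ∀ σ, Pat (σ δ = δ) (ρ σ) := fun σ => by
    have e : ε • Y σ = 0 := hzero _ (hYb0 σ)
    simpa [e] using hYr σ
  refine ⟨hpat, fun q hq P hP τ hτ hfix => ?_⟩
  haveI : Fact q.Prime := ⟨hq⟩
  by_cases hqD : q ∈ D
  · rw [L.eq_one_bad S hqD hP hτ (S.dih.inertia q hqD P hP τ hτ hfix), Matrix.one_apply_eq, one_pow]
  by_cases hqV : q ∈ V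
  · obtain ⟨hp, h4, hvD⟩ := S.detecting.prime q hqV
    have hone : ρ τ = 1 := eq_one_of_padic (r := r) (fun g hg _ => by
      obtain ⟨n, s, hn, hns⟩ := hV q hqV g hg
      obtain ⟨α, γ, hαγ, hF⟩ := S.dih.antidiag_form (S.detecting.frob q hqV).2
      have hs : s = 0 := by
        have e := hZ0 g
        rw [hZ1 g n (hrV q hqV g hg) hn, hns, Tangent.oM_apply, hF] at e
        have e01 := congrFun (congrFun e 0) 1
        simp at e01
        rcases e01 with e' | e'
        · exact e'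
        · rw [e', zero_mul] at hαγ
          exact absurd hαγ zero_ne_one
      rw [hs, zero_smul] at hns
      rw [hn, hzero n hns, add_zero]) hP hτ
      (S.dih.unram q hp (by rintro rfl; norm_num at h4) hvD P hP τ hτ)
    rw [hone, Matrix.one_apply_eq, one_pow]
  by_cases hq2 : q = 2
  swap
  · rw [L.unram q hq hq2 hqD hqV P hP τ hτ, Matrix.one_apply_eq, one_pow]
  subst hq2
  -- two
  have hdiag : ∀ σ, σ δ = δ → ∀ σ', σ' δ = δ → ρ (σ * σ') 0 0 = ρ σ 0 0 * ρ σ' 0 0 := by
    intro σ hσ σ' hσ'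
    rw [map_mul, Matrix.mul_apply, Fin.sum_univ_two, ((Pat.diag_iff hσ).mp (hpat σ)).1, zero_mul,
      add_zero]
  have hx : ∀ g : Gal, ∃ x : A, g ∈ inG 2 → ρ g 0 0 ^ 3 = 1 + ε * x := fun g => by
    by_cases hg : g ∈ inG 2
    · have h := hB.inertia 2 hq _ (CFT.Local.padicPlace_liesOverPrime 2) g hg (S.inertia_two g hg)
      rw [mapM_apply] at h
      obtain ⟨x, hx⟩ := hf (ρ g 0 0 ^ 3 - 1) (by rw [map_sub, map_pow, map_one, h, sub_self])
      exact ⟨x, fun _ => by rw [← hx, add_sub_cancel]⟩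
    · exact ⟨0, fun h => absurd h hg⟩
  choose x hx using hx
  have hsubA : ∀ a b : A, ε * a = ε * b → red a = red b := fun a b h => by
    have := red_eq_zero_of_mul hu hε (x := a - b) (by rw [mul_sub, h, sub_self])
    rwa [map_sub, sub_eq_zero] at this
  have hδ0 : ∀ g ∈ inG 2, red (x g) = 0 := fun g hg => by
    refine Flat.eq_zero_of_deep_of_add (X := k) (fun y => CharTwo.add_self_eq_zero y)
      (δ := fun g => red (x g)) (fun l => ?_) (fun g hg h hh => ?_) hg
    · refine ((hdeepβ.map (Matrix.entryAddMonoidHom k 0 0)) l).congr fun σ hσ => ?_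
      refine congrArg l (hsubA _ _ ?_)
      have h2 : (2 : A) = 0 := CharTwo.two_eq_zero
      have e := hx σ ((mem_tame 2).mp hσ).1
      rw [hβ σ hσ, Matrix.add_apply, Matrix.one_apply_eq, Matrix.smul_apply, smul_eq_mul] at e
      linear_combination e - (ε * β σ 0 0) * h2 - 3 * β σ 0 0 ^ 2 * hεε
        - ε * β σ 0 0 ^ 3 * hεε
    · rw [← map_add]
      refine hsubA _ _ ?_
      have e := hx (g * h) ((inG 2).mul_mem hg hh)
      rw [hdiag g (S.inertia_two g hg) h (S.inertia_two h hh), mul_pow, hx g hg, hx h hh] at e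
      linear_combination x g * x h * hεε - e
  have hcube : ∀ g ∈ inG 2, ρ g ^ 3 = 1 := fun g hg => by
    have hfg := S.inertia_two g hg
    obtain ⟨h01, h10⟩ := (Pat.diag_iff hfg).mp (hpat g)
    have ha : ρ g 0 0 ^ 3 = 1 := by rw [hx g hg, hsoc _ (hδ0 g hg), add_zero]
    have had : ρ g 0 0 * ρ g 1 1 = 1 := by
      have := L.det g
      rwa [Matrix.det_fin_two, h01, zero_mul, sub_zero] at this
    have hd : ρ g 1 1 ^ 3 = 1 := by
      calc ρ g 1 1 ^ 3 = ρ g 0 0 ^ 3 * ρ g 1 1 ^ 3 := by rw [ha, one_mul]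
        _ = 1 := by rw [← mul_pow, had, one_pow]
    have e : ρ g = Matrix.diagonal ![ρ g 0 0, ρ g 1 1] := by
      ext i j
      fin_cases i <;> fin_cases j <;> simp [h01, h10]
    rw [e, Matrix.diagonal_pow, ← Matrix.diagonal_one]
    congr 1
    funext i
    fin_cases i <;> simp [ha, hd]
  obtain ⟨g, hgP⟩ := exists_smul_eq hP (CFT.Local.padicPlace_liesOverPrime 2) hq
  have hmem : g * τ * g⁻¹ ∈ inG 2 := by
    show g * τ * g⁻¹ ∈ (padicPlace 2).inertiaSubgroupIn ℚ
    rw [← hgP]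
    exact mem_inertia_smul_iff.mpr hτ
  have h3 : ρ τ ^ 3 = 1 := by
    rw [← map_pow, show τ ^ 3 = g⁻¹ * (g * τ * g⁻¹) ^ 3 * g by simp [conj_pow]; group, map_mul, map_mul,
      map_pow, hcube _ hmem, mul_one, ← map_mul, inv_mul_cancel, map_one]
  obtain ⟨h01, h10⟩ := (Pat.diag_iff hfix).mp (hpat τ)
  have e : ρ τ = Matrix.diagonal ![ρ τ 0 0, ρ τ 1 1] := by
    ext i j
    fin_cases i <;> fin_cases j <;> simp [h01, h10]
  have e00 := congrFun (congrFun h3 0) 0
  rw [e, Matrix.diagonal_pow] at e00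
  simpa using e00

end Step

end Fermat.Agent.Two.ModTwo
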